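/-
S56 / block (III)-FLAT, leaf [FL-A] (helper6), part 2a: **the convolution ring `Hom_R(K, B)`.**

For a cocommutative `R`-coalgebra `K` and a commutative `R`-algebra `B`, Mathlib's
`WithConv (K →ₗ[R] B)` is a commutative `B`-algebra (convolution product).  For `K = H` a
commutative cocommutative bialgebra, the algebra homomorphisms `H →ₐ[R] B` (= the `B`-points of
the group scheme `Spec H`, with the convolution group law of the frozen `IsFlatAt`) sit inside it
as the elements `f` with `comulMap f = boxMap f` and `f 1 = 1`; this replaces the Cartier dual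
`D ⊗ B` of the paper proof (#2164) — no finiteness, flatness or antipode is needed.

* `mem_span_pow_iff` : for a non-zero-divisor `π` of `B`, `f ∈ (π^n)` iff all values of `f` lie in
  `(π^n)`; `algebraMap_mem_nonZeroDivisors`; `isAdicComplete` (the convolution ring is `π`-adically
  complete if `B` is: pointwise limits);
* `redMap φ` : post-composition with `φ : B →ₐ[R] B'`, a ring homomorphism;
* `evOne`, `comulMap` (`f ↦ f ∘ μ_H`, ring hom), `boxMap` (`f ↦ μ_B ∘ (f ⊗ f)`, monoid hom),
  `comulMap_eq_boxMap_iff`, `exists_algHom_iff`;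
* `Killed R H p` : `id_H^{*p} = 1` in `WithConv (H →ₐ[R] H)` ("`Spec H` is killed by `p`");
  `toLinearMap_convPow_eq_one` : then every algebra homomorphism `f : H →ₐ[R] B` has `f^{*p} = 1`
  in the convolution ring.
-/
import Mathlib

set_option autoImplicit false
set_option linter.unusedSectionVars false

open Coalgebra TensorProduct WithConv

namespace Fermat.Agent.S56.Flat.ConvRing

section Coalg

variable {R : Type*} [CommRing R]
variable {K : Type*} [AddCommGroup K] [Module R K] [Coalgebra R K] [IsCocomm R K]
variable {B : Type*} [CommRing B] [Algebra R B]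

/-- multiplication by a scalar of `B` in the convolution ring -/
theorem algebraMap_mul (b : B) (f : WithConv (K →ₗ[R] B)) :
    algebraMap B (WithConv (K →ₗ[R] B)) b * f = b • f := by
  rw [Algebra.smul_def]

theorem smul_apply' (b : B) (f : WithConv (K →ₗ[R] B)) (k : K) : (b • f) k = b * f k := rfl

/-- `f ∈ (π^n)` in the convolution ring iff all values lie in `(π^n)` -/
theorem mem_span_pow_iff {π : B} (hπ : π ∈ nonZeroDivisors B) (n : ℕ)
    (f : WithConv (K →ₗ[R] B)) :
    f ∈ Ideal.span {algebraMap B (WithConv (K →ₗ[R] B)) π ^ n} ↔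
      ∀ k, f k ∈ Ideal.span {π ^ n} := by
  constructor
  · intro h k
    obtain ⟨g, rfl⟩ := Ideal.mem_span_singleton'.mp h
    rw [← map_pow, mul_comm, algebraMap_mul, smul_apply']
    exact Ideal.mem_span_singleton'.mpr ⟨g k, mul_comm _ _⟩
  · intro h
    have hπn : π ^ n ∈ nonZeroDivisors B := pow_mem hπ n
    choose g hg using fun k => Ideal.mem_span_singleton'.mp (h k)
    have hadd : ∀ a b, g (a + b) = g a + g b := by
      intro a b
      apply (mul_cancel_right_mem_nonZeroDivisors hπn).mp
      rw [hg, add_mul, hg, hg, map_add]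
    have hsmul : ∀ (r : R) a, g (r • a) = r • g a := by
      intro r a
      apply (mul_cancel_right_mem_nonZeroDivisors hπn).mp
      rw [hg, smul_mul_assoc, hg, map_smul]
    let G : K →ₗ[R] B := { toFun := g, map_add' := hadd, map_smul' := hsmul }
    refine Ideal.mem_span_singleton'.mpr ⟨toConv G, ?_⟩
    rw [← map_pow, mul_comm, algebraMap_mul]
    ext k
    rw [smul_apply']
    show π ^ n * g k = f k
    rw [mul_comm, hg]

/-- a non-zero-divisor of `B` stays one in the convolution ring -/
theorem algebraMap_mem_nonZeroDivisors {π : B} (hπ : π ∈ nonZeroDivisors B) :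
    algebraMap B (WithConv (K →ₗ[R] B)) π ∈ nonZeroDivisors (WithConv (K →ₗ[R] B)) := by
  rw [mem_nonZeroDivisors_iff_right]
  intro f hf
  rw [mul_comm, algebraMap_mul] at hf
  ext k
  have := congrArg (fun g : WithConv (K →ₗ[R] B) => g k) hf
  simp only [smul_apply'] at this
  rw [mul_comm] at this
  exact (mem_nonZeroDivisors_iff_right.mp hπ) _ this

/-- the convolution ring is `π`-adically complete if `B` is -/
theorem isAdicComplete {π : B} (hπ : π ∈ nonZeroDivisors B) [IsAdicComplete (Ideal.span {π}) B] :
    IsAdicComplete (Ideal.span {algebraMap B (WithConv (K →ₗ[R] B)) π})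
      (WithConv (K →ₗ[R] B)) := by
  have key : ∀ (n : ℕ) (f : WithConv (K →ₗ[R] B)),
      f ∈ (Ideal.span {algebraMap B (WithConv (K →ₗ[R] B)) π} ^ n • ⊤ :
        Submodule (WithConv (K →ₗ[R] B)) (WithConv (K →ₗ[R] B))) ↔
      ∀ k, f k ∈ (Ideal.span {π} ^ n • ⊤ : Submodule B B) := by
    intro n f
    rw [smul_eq_mul, Ideal.mul_top, smul_eq_mul, Ideal.mul_top, Ideal.span_singleton_pow,
      Ideal.span_singleton_pow]
    exact mem_span_pow_iff hπ n f
  refine { haus' := ?_, prec' := ?_ }
  · intro f hf
    ext k
    refine IsHausdorff.haus (inferInstance : IsHausdorff (Ideal.span {π}) B) (f k) fun n => ?_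
    have h1 := hf n
    rw [SModEq.zero] at h1 ⊢
    exact (key n f).mp h1 k
  · intro f hf
    -- pointwise limits
    have hc : ∀ k, ∃ L : B, ∀ n, f n k ≡ L [SMOD (Ideal.span {π} ^ n • ⊤ : Submodule B B)] := by
      intro k
      refine IsPrecomplete.prec (inferInstance : IsPrecomplete (Ideal.span {π}) B)
        (f := fun n => f n k) ?_
      intro m n hmn
      have h1 := hf hmn
      rw [SModEq.sub_mem] at h1 ⊢
      exact (key m _).mp h1 k
    choose L hL using hc
    have huniq : ∀ (k : K) (b : B),
        (∀ n, f n k ≡ b [SMOD (Ideal.span {π} ^ n • ⊤ : Submodule B B)]) → b = L k := by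
      intro k b hb
      rw [← sub_eq_zero]
      refine IsHausdorff.haus (inferInstance : IsHausdorff (Ideal.span {π}) B) _ fun n => ?_
      rw [SModEq.zero]
      have h1 := (hb n).symm.trans (hL k n)
      rw [SModEq.sub_mem] at h1
      exact h1
    have hadd : ∀ a b, L (a + b) = L a + L b := by
      intro a b
      refine (huniq (a + b) _ fun n => ?_).symm
      have := (hL a n).add (hL b n)
      simpa using this
    have hsmul : ∀ (r : R) a, L (r • a) = r • L a := by
      intro r a
      refine (huniq (r • a) _ fun n => ?_).symm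
      have h1 := hL a n
      rw [SModEq.sub_mem] at h1 ⊢
      have h2 : f n (r • a) - r • L a = algebraMap R B r * (f n a - L a) := by
        rw [map_smul, Algebra.smul_def, Algebra.smul_def, mul_sub]
      rw [h2]
      exact Submodule.smul_mem _ _ h1
    let G : K →ₗ[R] B := { toFun := L, map_add' := hadd, map_smul' := hsmul }
    refine ⟨toConv G, fun n => ?_⟩
    rw [SModEq.sub_mem]
    refine (key n _).mpr fun k => ?_
    have h1 := hL k n
    rw [SModEq.sub_mem] at h1
    exact h1

end Coalg

section Red

variable {R : Type*} [CommRing R]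
variable {K : Type*} [AddCommGroup K] [Module R K] [Coalgebra R K] [IsCocomm R K]
variable {B B' : Type*} [CommRing B] [Algebra R B] [CommRing B'] [Algebra R B']

/-- post-composition with an algebra homomorphism, as a ring homomorphism of convolution rings -/
noncomputable def redMap (φ : B →ₐ[R] B') : WithConv (K →ₗ[R] B) →+* WithConv (K →ₗ[R] B') where
  toFun f := toConv (φ.toLinearMap.comp f.ofConv)
  map_one' := by
    ext k
    simp [LinearMap.convOne_def]
  map_mul' f g := by
    have := LinearMap.algHom_comp_convMul_distrib (C := K) φ f g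
    apply WithConv.ofConv_injective
    exact this
  map_zero' := by
    ext k
    simp
  map_add' f g := by
    ext k
    simp

@[simp] theorem redMap_apply (φ : B →ₐ[R] B') (f : WithConv (K →ₗ[R] B)) (k : K) :
    redMap φ f k = φ (f k) := rfl

end Red

section Bialg

variable {R : Type*} [CommRing R]
variable {H : Type*} [CommRing H] [Bialgebra R H] [IsCocomm R H]
variable {B : Type*} [CommRing B] [Algebra R B]

/-- evaluation at `1`, a ring homomorphism of the convolution ring -/
noncomputable def evOne : WithConv (H →ₗ[R] B) →+* B where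
  toFun f := f 1
  map_one' := by simp [LinearMap.convOne_def]
  map_mul' f g := by
    show (f * g) 1 = f 1 * g 1
    rw [LinearMap.convMul_apply, Bialgebra.comul_one, Algebra.TensorProduct.one_def,
      TensorProduct.map_tmul, LinearMap.mul'_apply]
  map_zero' := rfl
  map_add' f g := rfl

@[simp] theorem evOne_apply (f : WithConv (H →ₗ[R] B)) : evOne f = f 1 := rfl

/-- `f ↦ f ∘ μ_H`, a ring homomorphism `Hom(H,B) → Hom(H ⊗ H, B)` of convolution rings -/
noncomputable def comulMap : WithConv (H →ₗ[R] B) →+* WithConv (H ⊗[R] H →ₗ[R] B) where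
  toFun f := toConv (f.ofConv.comp (LinearMap.mul' R H))
  map_one' := by
    ext a b
    simp [LinearMap.convOne_def, mul_comm]
  map_mul' f g := by
    have := LinearMap.convMul_comp_coalgHom_distrib f g (Bialgebra.mulCoalgHom R H)
    apply WithConv.ofConv_injective
    exact this
  map_zero' := by
    ext a b
    simp
  map_add' f g := by
    ext a b
    simp

@[simp] theorem comulMap_tmul (f : WithConv (H →ₗ[R] B)) (a b : H) :
    comulMap f (a ⊗ₜ b) = f (a * b) := rfl

/-- `f ↦ μ_B ∘ (f ⊗ f)`, a multiplicative map `Hom(H,B) → Hom(H ⊗ H, B)` of convolution rings -/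
noncomputable def boxMap : WithConv (H →ₗ[R] B) →* WithConv (H ⊗[R] H →ₗ[R] B) where
  toFun f := redMap (Algebra.TensorProduct.lmul' R (S := B))
    (toConv (TensorProduct.map f.ofConv f.ofConv))
  map_one' := by
    ext a b
    simp [LinearMap.convOne_def, mul_comm]
  map_mul' f g := by
    rw [← map_mul, TensorProduct.map_convMul_map]

@[simp] theorem boxMap_tmul (f : WithConv (H →ₗ[R] B)) (a b : H) :
    boxMap f (a ⊗ₜ b) = f a * f b := rfl

/-- a linear map is multiplicative iff its two images in `Hom(H ⊗ H, B)` agree -/
theorem comulMap_eq_boxMap_iff (f : WithConv (H →ₗ[R] B)) :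
    comulMap f = boxMap f ↔ ∀ a b, f (a * b) = f a * f b := by
  constructor
  · intro h a b
    have := congrArg (fun g : WithConv (H ⊗[R] H →ₗ[R] B) => g (a ⊗ₜ b)) h
    simpa using this
  · intro h
    ext a b
    simpa using h a b

/-- a linear map `H → B` is (the linear map of) an algebra homomorphism iff it is multiplicative
and unital -/
theorem exists_algHom_iff (f : WithConv (H →ₗ[R] B)) :
    (∃ g : H →ₐ[R] B, toConv g.toLinearMap = f) ↔ comulMap f = boxMap f ∧ f 1 = 1 := by
  constructor
  · rintro ⟨g, rfl⟩
    refine ⟨(comulMap_eq_boxMap_iff _).mpr fun a b => ?_, ?_⟩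
    · exact map_mul g a b
    · exact map_one g
  · rintro ⟨h1, h2⟩
    rw [comulMap_eq_boxMap_iff] at h1
    exact ⟨AlgHom.ofLinearMap f.ofConv h2 h1, rfl⟩

section Killed

variable {B' : Type*} [CommRing B'] [Algebra R B']

/-- post-composition with an algebra hom commutes with convolution powers of algebra homs -/
theorem comp_convPow (φ : B →ₐ[R] B') (f : WithConv (H →ₐ[R] B)) (n : ℕ) :
    toConv (φ.comp (f ^ n).ofConv) = (toConv (φ.comp f.ofConv)) ^ n := by
  induction n with
  | zero =>
    rw [pow_zero, pow_zero]
    apply WithConv.ofConv_injective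
    ext h
    simp
  | succ n ih =>
    rw [pow_succ, pow_succ, ← ih]
    apply WithConv.ofConv_injective
    exact AlgHom.comp_convMul_distrib φ (f ^ n) f

variable (R H) in
/-- `H` is killed by `p`: the `p`-th convolution power of the identity is the unit -/
def Killed (p : ℕ) : Prop := (toConv (AlgHom.id R H) : WithConv (H →ₐ[R] H)) ^ p = 1

/-- over a bialgebra killed by `p`, every algebra homomorphism has trivial `p`-th convolution
power -/
theorem algHom_convPow_eq_one {p : ℕ} (hH : Killed R H p) (f : H →ₐ[R] B) :
    (toConv f : WithConv (H →ₐ[R] B)) ^ p = 1 := by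
  have h := comp_convPow f (toConv (AlgHom.id R H)) p
  rw [hH] at h
  have h2 : toConv (f.comp (toConv (AlgHom.id R H)).ofConv) = (toConv f : WithConv (H →ₐ[R] B)) := by
    rfl
  rw [h2] at h
  rw [← h]
  apply WithConv.ofConv_injective
  ext a
  simp

/-- the same in the convolution ring of linear maps -/
theorem toLinearMap_convPow_eq_one {p : ℕ} (hH : Killed R H p) (f : H →ₐ[R] B) :
    (toConv f.toLinearMap : WithConv (H →ₗ[R] B)) ^ p = 1 := by
  have h := AlgHom.toLinearMap_convPow (toConv f : WithConv (H →ₐ[R] B)) p
  rw [algHom_convPow_eq_one hH f] at h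
  exact h.symm.trans AlgHom.toLinearMap_convOne

end Killed

end Bialg

end Fermat.Agent.S56.Flat.ConvRing
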