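/-
S56 / block (III)-FLAT, leaf [FL-A] (helper6), part 2b: **Lemma A** (#2164, refereed lead #2437).

`H` a commutative cocommutative `R`-bialgebra killed by `p` (`ConvRing.Killed R H p`), `B` a
commutative `R`-algebra with a non-zero-divisor `π` such that `p = π^e · unit` and `B` is `π`-adically
complete.  Integer indexing of the filtration: `v(π) = 1/e`, so "`s > 1/(p-1)`" is `e < n (p-1)`,
"`s + 1`" is `n + e`, and "`m > p/(p-1)`" is `p e < M (p-1)`.

The only input about `p`-th powers is the package `PthRoot C p ϖ e` ((A1): on `1 + ϖ^n C`,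
`e < n (p-1)`, the `p`-th power map is injective and onto `1 + ϖ^(n+e) C`; `1 + ϖ C ⊆ Cˣ`), used for
the two convolution rings `Hom_R(H, B)` and `Hom_R(H ⊗ H, B)`; it is discharged by
`Flat/PthPower.lean` (helper13) + `ConvRing.isAdicComplete`.

* `eq_of_forall_sub_mem` **(A2)** : two points `x x' : H →ₐ[R] B` congruent modulo `π^n`,
  `e < n (p-1)`, are equal;
* `exists_algHom_of_approx` **(A3)** : an `R`-linear `x₀ : H → B` which is multiplicative and unital
  modulo `π^M`, `p e < M (p-1)`, agrees modulo `π^(M-e)` with a true point `x : H →ₐ[R] B`;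
* `exists_algHom_of_quotient` : the same from a point `x̄ : H →ₐ[R] B ⧸ (π^M)` (`H` projective);
* `card_le_of_algHom` **(Cor, abstract property (P_m))** : a homomorphism `θ : B_L → B_E ⧸ (π_E^M)`
  which "preserves small valuations" gives `#Hom(H, B_L) ≤ #Hom(H, B_E)`.
-/
import Mathlib
import Fermat.Agent.S56.Flat.ConvRing

set_option autoImplicit false
set_option linter.unusedSectionVars false

open Coalgebra TensorProduct WithConv

namespace Fermat.Agent.S56.Flat.LemmaA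

open Fermat.Agent.S56.Flat.ConvRing

/-! ### the package (A1) -/

/-- **(A1)** for a commutative ring `C` with a filtration `(ϖ^n)`, `p = ϖ^e · unit`. -/
structure PthRoot (C : Type*) [CommRing C] (p : ℕ) (ϖ : C) (e : ℕ) : Prop where
  isUnit : ∀ x : C, x - 1 ∈ Ideal.span {ϖ} → IsUnit x
  inj : ∀ n, e < n * (p - 1) → ∀ x y : C, x - 1 ∈ Ideal.span {ϖ ^ n} →
    y - 1 ∈ Ideal.span {ϖ ^ n} → x ^ p = y ^ p → x = y
  surj : ∀ n, e < n * (p - 1) → ∀ a : C, a - 1 ∈ Ideal.span {ϖ ^ (n + e)} →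
    ∃ x, x - 1 ∈ Ideal.span {ϖ ^ n} ∧ x ^ p = a

section Ring

variable {C : Type*} [CommRing C] {p : ℕ} {ϖ : C} {e : ℕ}

theorem span_pow_le_span {n : ℕ} (hn : 1 ≤ n) : Ideal.span {ϖ ^ n} ≤ Ideal.span {ϖ} := by
  rw [Ideal.span_singleton_le_span_singleton]
  exact dvd_pow_self ϖ (by omega)

theorem span_pow_le_span_pow {m n : ℕ} (h : m ≤ n) :
    Ideal.span {ϖ ^ n} ≤ Ideal.span {ϖ ^ m} := by
  rw [Ideal.span_singleton_le_span_singleton]
  exact pow_dvd_pow ϖ h

theorem pos_of_lt_mul {n : ℕ} (hn : e < n * (p - 1)) : 1 ≤ n := by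
  rcases Nat.eq_zero_or_pos n with rfl | h
  · simp at hn
  · exact h

/-- two elements with the same `p`-th power `1`, congruent modulo `ϖ^n`, are equal -/
theorem PthRoot.eq_of_pow_eq_one (hC : PthRoot C p ϖ e) (hp : 0 < p) {n : ℕ}
    (hn : e < n * (p - 1)) {a b : C} (ha : a ^ p = 1) (hb : b ^ p = 1)
    (hab : a - b ∈ Ideal.span {ϖ ^ n}) : a = b := by
  have hbu : IsUnit b := by
    refine IsUnit.of_mul_eq_one (b ^ (p - 1)) ?_
    rw [← pow_succ', Nat.sub_add_cancel hp, hb]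
  obtain ⟨u, rfl⟩ := hbu
  have h1 : a * (↑u⁻¹ : C) - 1 ∈ Ideal.span {ϖ ^ n} := by
    have : a * (↑u⁻¹ : C) - 1 = (a - ↑u) * (↑u⁻¹ : C) := by
      rw [sub_mul, Units.mul_inv]
    rw [this]
    exact Ideal.mul_mem_right _ _ hab
  have hup : u ^ p = 1 := Units.ext (by rw [Units.val_pow_eq_pow_val, hb]; rfl)
  have h2 : (a * (↑u⁻¹ : C)) ^ p = (1 : C) ^ p := by
    rw [mul_pow, ha, one_mul, one_pow, ← Units.val_pow_eq_pow_val, inv_pow, hup, inv_one,
      Units.val_one]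
  have h3 := hC.inj n hn _ 1 h1 (by simp) h2
  calc a = a * (↑u⁻¹ : C) * ↑u := by rw [mul_assoc, Units.inv_mul, mul_one]
    _ = ↑u := by rw [h3, one_mul]

end Ring

/-! ### (A2) -/

section Points

variable {R : Type*} [CommRing R] {H : Type*} [CommRing H] [Bialgebra R H] [IsCocomm R H]
variable {B : Type*} [CommRing B] [Algebra R B] {p : ℕ} {π : B} {e : ℕ}

/-- **(A2)**: two points of `H` with values in `B`, congruent modulo `π^n` with `e < n (p-1)`,
are equal. -/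
theorem eq_of_forall_sub_mem (hp : 0 < p) (hH : Killed R H p) (hπ : π ∈ nonZeroDivisors B)
    (hC : PthRoot (WithConv (H →ₗ[R] B)) p (algebraMap B (WithConv (H →ₗ[R] B)) π) e)
    {n : ℕ} (hn : e < n * (p - 1)) (x x' : H →ₐ[R] B)
    (h : ∀ a, x a - x' a ∈ Ideal.span {π ^ n}) : x = x' := by
  have hab : (toConv x.toLinearMap : WithConv (H →ₗ[R] B)) - toConv x'.toLinearMap ∈
      Ideal.span {algebraMap B (WithConv (H →ₗ[R] B)) π ^ n} :=
    (mem_span_pow_iff hπ n _).mpr h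
  have := hC.eq_of_pow_eq_one hp hn (toLinearMap_convPow_eq_one hH x)
    (toLinearMap_convPow_eq_one hH x') hab
  exact AlgHom.toLinearMap_injective (WithConv.toConv_injective this)

/-! ### (A3) -/

theorem lt_of_mul_lt {M : ℕ} (_hp : 0 < p) (hM : p * e < M * (p - 1)) : e < M := by
  by_contra h
  push Not at h
  have h1 : M * (p - 1) ≤ e * (p - 1) := Nat.mul_le_mul_right _ h
  have h2 : e * (p - 1) ≤ p * e := by
    rw [mul_comm p e]
    exact Nat.mul_le_mul_left _ (Nat.sub_le p 1)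
  omega

theorem lt_sub_mul {M : ℕ} (hp : 0 < p) (hM : p * e < M * (p - 1)) : e < (M - e) * (p - 1) := by
  have hlt := lt_of_mul_lt hp hM
  obtain ⟨d, rfl⟩ : ∃ d, M = e + d := ⟨M - e, by omega⟩
  rw [Nat.add_sub_cancel_left]
  obtain ⟨q, rfl⟩ : ∃ q, p = q + 1 := ⟨p - 1, by omega⟩
  rw [Nat.add_sub_cancel] at hM ⊢
  have : (q + 1) * e = e * q + e := by ring
  rw [this, add_mul] at hM
  omega

/-- **(A3)**: an `R`-linear map `x₀ : H → B` which is multiplicative and unital modulo `π^M`,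
`p e < M (p-1)`, agrees modulo `π^(M-e)` with a true point. -/
theorem exists_algHom_of_approx (hp : 0 < p) (hH : Killed R H p) (hπ : π ∈ nonZeroDivisors B)
    (hC : PthRoot (WithConv (H →ₗ[R] B)) p (algebraMap B (WithConv (H →ₗ[R] B)) π) e)
    (hC2 : PthRoot (WithConv (H ⊗[R] H →ₗ[R] B)) p
      (algebraMap B (WithConv (H ⊗[R] H →ₗ[R] B)) π) e)
    {M : ℕ} (hM : p * e < M * (p - 1)) (x₀ : H →ₗ[R] B)
    (hmul : ∀ a b, x₀ (a * b) - x₀ a * x₀ b ∈ Ideal.span {π ^ M})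
    (h1 : x₀ 1 - 1 ∈ Ideal.span {π ^ M}) :
    ∃ x : H →ₐ[R] B, ∀ a, x a - x₀ a ∈ Ideal.span {π ^ (M - e)} := by
  have heM : e < M := lt_of_mul_lt hp hM
  have hn : e < (M - e) * (p - 1) := lt_sub_mul hp hM
  have hn1 : 1 ≤ M - e := by omega
  set X₀ : WithConv (H →ₗ[R] B) := toConv x₀ with hX₀
  -- Step 1: `X₀ ^ p ≡ 1` modulo `π^M`
  have hstep1 : X₀ ^ p - 1 ∈ Ideal.span {algebraMap B (WithConv (H →ₗ[R] B)) π ^ M} := by
    rw [mem_span_pow_iff hπ]
    intro k
    let q : B →ₐ[R] B ⧸ Ideal.span {π ^ M} := Ideal.Quotient.mkₐ R _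
    have hq1 : (q.toLinearMap.comp x₀) 1 = 1 := by
      show q (x₀ 1) = 1
      rw [← sub_eq_zero, ← map_one q, ← map_sub]
      exact Ideal.Quotient.eq_zero_iff_mem.mpr h1
    have hqm : ∀ a b, (q.toLinearMap.comp x₀) (a * b)
        = (q.toLinearMap.comp x₀) a * (q.toLinearMap.comp x₀) b := by
      intro a b
      show q (x₀ (a * b)) = q (x₀ a) * q (x₀ b)
      rw [← sub_eq_zero, ← map_mul, ← map_sub]
      exact Ideal.Quotient.eq_zero_iff_mem.mpr (hmul a b)
    let g : H →ₐ[R] B ⧸ Ideal.span {π ^ M} := AlgHom.ofLinearMap (q.toLinearMap.comp x₀) hq1 hqm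
    have hg : (toConv g.toLinearMap : WithConv (H →ₗ[R] B ⧸ Ideal.span {π ^ M}))
        = redMap q X₀ := rfl
    have hgp := toLinearMap_convPow_eq_one hH g
    rw [hg, ← map_pow] at hgp
    have h0 : redMap q (X₀ ^ p - 1) = 0 := by rw [map_sub, hgp, map_one, sub_self]
    have h0k : redMap q (X₀ ^ p - 1) k = 0 := by rw [h0]; rfl
    rw [redMap_apply] at h0k
    exact Ideal.Quotient.eq_zero_iff_mem.mp h0k
  -- Step 2: a `p`-th root `Y` of `X₀ ^ p` in `1 + π^(M-e)`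
  have hMe : M - e + e = M := Nat.sub_add_cancel heM.le
  obtain ⟨Y, hY1, hYp⟩ := hC.surj (M - e) hn (X₀ ^ p) (by rw [hMe]; exact hstep1)
  -- Step 3: units, `X := X₀ / Y`
  have hYu : IsUnit Y := hC.isUnit Y (span_pow_le_span hn1 hY1)
  have hX₀pu : IsUnit (X₀ ^ p) := by rw [← hYp]; exact hYu.pow p
  have hX₀u : IsUnit X₀ := (isUnit_pow_iff (by omega)).mp hX₀pu
  obtain ⟨uY, rfl⟩ := hYu
  set X : WithConv (H →ₗ[R] B) := X₀ * (↑uY⁻¹ : WithConv (H →ₗ[R] B)) with hX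
  have hXp : X ^ p = 1 := by
    rw [hX, mul_pow, ← hYp, ← Units.val_pow_eq_pow_val, ← Units.val_pow_eq_pow_val, inv_pow,
      Units.mul_inv]
  have hXX₀ : X - X₀ ∈ Ideal.span {algebraMap B (WithConv (H →ₗ[R] B)) π ^ (M - e)} := by
    have : X - X₀ = -(X₀ * (↑uY⁻¹ : WithConv (H →ₗ[R] B)) * ((uY : WithConv (H →ₗ[R] B)) - 1)) := by
      rw [hX, mul_sub, mul_assoc, Units.inv_mul]
      ring
    rw [this]
    exact Ideal.neg_mem_iff _ |>.mpr (Ideal.mul_mem_left _ _ hY1)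
  have hXk : ∀ k, X k - x₀ k ∈ Ideal.span {π ^ (M - e)} := by
    intro k
    exact (mem_span_pow_iff hπ (M - e) (X - X₀)).mp hXX₀ k
  have hle : Ideal.span {π ^ M} ≤ Ideal.span {π ^ (M - e)} :=
    span_pow_le_span_pow (Nat.sub_le M e)
  -- Step 4: `X` is multiplicative
  have hcb : comulMap X - boxMap X ∈
      Ideal.span {algebraMap B (WithConv (H ⊗[R] H →ₗ[R] B)) π ^ (M - e)} := by
    rw [mem_span_pow_iff hπ]
    intro k
    induction k using TensorProduct.induction_on with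
    | zero =>
      rw [map_zero]
      exact Ideal.zero_mem _
    | tmul a b =>
      show comulMap X (a ⊗ₜ b) - boxMap X (a ⊗ₜ b) ∈ _
      rw [comulMap_tmul, boxMap_tmul]
      have e1 : X (a * b) - X a * X b
          = (X (a * b) - x₀ (a * b)) + (x₀ (a * b) - x₀ a * x₀ b)
            - (X a - x₀ a) * X b - x₀ a * (X b - x₀ b) := by ring
      rw [e1]
      refine Ideal.sub_mem _ (Ideal.sub_mem _ (Ideal.add_mem _ (hXk _) (hle (hmul a b))) ?_) ?_
      · exact Ideal.mul_mem_right _ _ (hXk a)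
      · exact Ideal.mul_mem_left _ _ (hXk b)
    | add k k' hk hk' =>
      rw [map_add]
      exact Ideal.add_mem _ hk hk'
  have hcbeq : comulMap X = boxMap X :=
    hC2.eq_of_pow_eq_one hp hn (by rw [← map_pow, hXp, map_one]) (by rw [← map_pow, hXp, map_one])
      hcb
  -- Step 5: `X 1 = 1`
  have hXu : IsUnit X := by
    refine IsUnit.of_mul_eq_one (X ^ (p - 1)) ?_
    rw [← pow_succ', Nat.sub_add_cancel hp, hXp]
  have hX1u : IsUnit (X 1) := (hXu.map evOne)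
  have hX1 : X 1 = 1 := by
    have hidem : X 1 * X 1 = X 1 := by
      have := (comulMap_eq_boxMap_iff X).mp hcbeq 1 1
      rw [mul_one] at this
      exact this.symm
    obtain ⟨v, hv⟩ := hX1u
    rw [← hv] at hidem ⊢
    have : (v : B) = 1 := by
      have h2 : (↑v⁻¹ : B) * (↑v * ↑v) = ↑v⁻¹ * ↑v := by rw [hidem]
      rwa [← mul_assoc, Units.inv_mul, one_mul] at h2
    exact this
  -- conclusion
  obtain ⟨x, hx⟩ := (exists_algHom_iff X).mpr ⟨hcbeq, hX1⟩
  refine ⟨x, fun a => ?_⟩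
  have : x a = X a := by rw [← hx]; rfl
  rw [this]
  exact hXk a

/-- **(A3) from a point modulo `π^M`** (`H` projective as an `R`-module): every point
`x̄ : H →ₐ[R] B ⧸ (π^M)`, `p e < M (p-1)`, agrees modulo `π^(M-e)` with a true point. -/
theorem exists_algHom_of_quotient [Module.Projective R H] (hp : 0 < p) (hH : Killed R H p)
    (hπ : π ∈ nonZeroDivisors B)
    (hC : PthRoot (WithConv (H →ₗ[R] B)) p (algebraMap B (WithConv (H →ₗ[R] B)) π) e)
    (hC2 : PthRoot (WithConv (H ⊗[R] H →ₗ[R] B)) p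
      (algebraMap B (WithConv (H ⊗[R] H →ₗ[R] B)) π) e)
    {M : ℕ} (hM : p * e < M * (p - 1)) (xb : H →ₐ[R] B ⧸ Ideal.span {π ^ M}) :
    ∃ x : H →ₐ[R] B, ∀ a, ∃ b : B, xb a = Ideal.Quotient.mk _ b ∧
      x a - b ∈ Ideal.span {π ^ (M - e)} := by
  let q : B →ₐ[R] B ⧸ Ideal.span {π ^ M} := Ideal.Quotient.mkₐ R _
  have hq : Function.Surjective q.toLinearMap := Ideal.Quotient.mkₐ_surjective R _
  obtain ⟨x₀, hx₀⟩ := Module.projective_lifting_property q.toLinearMap xb.toLinearMap hq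
  have hx₀a : ∀ a, Ideal.Quotient.mk (Ideal.span {π ^ M}) (x₀ a) = xb a := fun a =>
    congrArg (fun f : H →ₗ[R] B ⧸ Ideal.span {π ^ M} => f a) hx₀
  have hmul : ∀ a b, x₀ (a * b) - x₀ a * x₀ b ∈ Ideal.span {π ^ M} := by
    intro a b
    rw [← Ideal.Quotient.eq_zero_iff_mem, map_sub, hx₀a (a * b),
      map_mul (Ideal.Quotient.mk (Ideal.span {π ^ M})), hx₀a a, hx₀a b, map_mul xb, sub_self]
  have h1 : x₀ 1 - 1 ∈ Ideal.span {π ^ M} := by
    rw [← Ideal.Quotient.eq_zero_iff_mem, map_sub, hx₀a, map_one, map_one, sub_self]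
  obtain ⟨x, hx⟩ := exists_algHom_of_approx hp hH hπ hC hC2 hM x₀ hmul h1
  exact ⟨x, fun a => ⟨x₀ a, (hx₀a a).symm, hx a⟩⟩

end Points

/-! ### the corollary: abstract property `(P_m)` -/

section Cor

variable {R : Type*} [CommRing R] {H : Type*} [CommRing H] [Bialgebra R H] [IsCocomm R H]
variable {BL : Type*} [CommRing BL] [Algebra R BL] {πL : BL} {eL nL : ℕ}
variable {BE : Type*} [CommRing BE] [Algebra R BE] {πE : BE} {eE : ℕ}
variable {p : ℕ}

/-- **Cor (abstract `(P_m)`).**  `B_L`, `B_E` two rings as in Lemma A, `θ : B_L → B_E ⧸ (π_E^M)` an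
`R`-algebra homomorphism with `p e_E < M (p-1)`, which preserves small valuations in the sense of
`hθ`: an element of `B_L` whose image dies in `B_E ⧸ (π_E^(M-e_E))` lies in `(π_L^n_L)`, where
`e_L < n_L (p-1)`.  Then `H` has at least as many points in `B_E` as in `B_L`. -/
theorem card_le_of_algHom [Module.Projective R H] (hp : 0 < p) (hH : Killed R H p)
    (hπL : πL ∈ nonZeroDivisors BL)
    (hCL : PthRoot (WithConv (H →ₗ[R] BL)) p (algebraMap BL (WithConv (H →ₗ[R] BL)) πL) eL)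
    (hnL : eL < nL * (p - 1))
    (hπE : πE ∈ nonZeroDivisors BE)
    (hCE : PthRoot (WithConv (H →ₗ[R] BE)) p (algebraMap BE (WithConv (H →ₗ[R] BE)) πE) eE)
    (hC2E : PthRoot (WithConv (H ⊗[R] H →ₗ[R] BE)) p
      (algebraMap BE (WithConv (H ⊗[R] H →ₗ[R] BE)) πE) eE)
    {M : ℕ} (hM : p * eE < M * (p - 1)) (θ : BL →ₐ[R] BE ⧸ Ideal.span {πE ^ M})
    (hθ : ∀ (b : BL) (c : BE), θ b = Ideal.Quotient.mk _ c → c ∈ Ideal.span {πE ^ (M - eE)} →
      b ∈ Ideal.span {πL ^ nL})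
    [Finite (H →ₐ[R] BE)] :
    Nat.card (H →ₐ[R] BL) ≤ Nat.card (H →ₐ[R] BE) := by
  have hex : ∀ x : H →ₐ[R] BL, ∃ y : H →ₐ[R] BE, ∀ a, ∃ b : BE,
      θ (x a) = Ideal.Quotient.mk _ b ∧ y a - b ∈ Ideal.span {πE ^ (M - eE)} := fun x =>
    exists_algHom_of_quotient hp hH hπE hCE hC2E hM (θ.comp x)
  choose Φ hΦ using hex
  refine Nat.card_le_card_of_injective Φ fun x x' hxx' => ?_
  refine eq_of_forall_sub_mem hp hH hπL hCL hnL x x' fun a => ?_
  obtain ⟨b, hb, hyb⟩ := hΦ x a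
  obtain ⟨b', hb', hyb'⟩ := hΦ x' a
  refine hθ (x a - x' a) (b - b') (by rw [map_sub, map_sub, hb, hb']) ?_
  have : b - b' = (Φ x' a - b') - (Φ x a - b) := by rw [hxx']; ring
  rw [this]
  exact Ideal.sub_mem _ hyb' hyb

end Cor

end Fermat.Agent.S56.Flat.LemmaA
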