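/-
S56 / FLAT, leaf [FL-A] part 1 (helper13; blueprint `moonshots` row 50 §3.F, helper6's Lemma A
(A1)–(A3), board #2164, refereed by lead #2437): **the `p`-th power map on the congruence subgroups
of a `ϖ`-adically complete ring**, in abstract form (Mathlib only, no Hopf algebra in the statements).

Setting (`PthData p ϖ e`): `C` a commutative ring, `ϖ : C` a non-zero-divisor, `C` is `ϖ`-adically
complete, `p` a prime with `p = u ϖ ^ e`, `u` a unit.  (Intended instance: `C = D ⊗ 𝒪_E`, `D` finite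
free over `ℤ_p`, `𝒪_E` a complete discrete valuation ring with uniformiser `ϖ` and absolute
ramification index `e`; the ideal `𝔞^s` of the blueprint, `v(p) = 1`, is `ϖ ^ n C` with `n = e s`, and
the condition `s > 1/(p-1)` reads `e < (p - 1) * n`.)

* `add_pow_prime_expand` : `(a + b) ^ p = a ^ p + p a ^ (p-1) b + p b ^ 2 k + b ^ p`;
* `one_add_pow` : `(1 + ϖ ^ n z) ^ p = 1 + ϖ ^ (n + e) (u z + ϖ w)` for `e < (p - 1) n`;
* **(A2)** `eq_one_of_pow_eq_one` : `x ≡ 1 mod ϖ ^ n`, `x ^ p = 1`, `e < (p - 1) n` ⟹ `x = 1`;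
* **(A1)** `exists_pow_eq`, `existsUnique_pow_eq` : for `e < (p - 1) n` the `p`-th power map is a
  bijection `1 + ϖ ^ n C → 1 + ϖ ^ (n + e) C` (successive approximation);
* `congrUnits ϖ n : Subgroup Cˣ` (the units `≡ 1 mod ϖ ^ n`) and the unit forms `pow_mem_congrUnits`,
  `eq_one_of_mem_congrUnits`, `exists_mem_congrUnits_pow_eq`;
* **(A3)** `exists_ker_of_approx` : `ψ : Cˣ →* C₂ˣ`, `ι : C₂ˣ →* Cˣ`, `ε : Cˣ →* Cˣ` group
  homomorphisms preserving the congruence subgroups with `x ^ p = ε x * (ι (ψ x))⁻¹`; if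
  `ψ x₀ ≡ 1`, `ε x₀ ≡ 1 mod ϖ ^ M` and `e < (p - 1) (M - e)` then there is `x ∈ ker ψ` with
  `x ≡ x₀ mod ϖ ^ (M - e)`; `eq_of_ker_of_congr` : such an `x` is unique ((A2) for points);
* `exists_injective_lift` : the counting form used by the corollary (`(P_m)`).
-/
import Mathlib

set_option autoImplicit false
set_option linter.style.haveILetI false
set_option linter.unusedVariables false

namespace Fermat.Agent.S56.Flat.PthPower

variable {C : Type*} [CommRing C]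

/-! ### the binomial expansion of a `p`-th power -/

/-- `(a + b) ^ p = a ^ p + p a ^ (p-1) b + p b ^ 2 k + b ^ p`. -/
theorem add_pow_prime_expand {p : ℕ} (hp : p.Prime) (a b : C) :
    ∃ k : C, (a + b) ^ p = a ^ p + p * a ^ (p - 1) * b + p * b ^ 2 * k + b ^ p := by
  obtain ⟨q, rfl⟩ : ∃ q, p = q + 2 := ⟨p - 2, by have := hp.two_le; omega⟩
  have hdvd : ((q + 2 : ℕ) : C) * b ^ 2 ∣ ∑ m ∈ Finset.range q,
      a ^ (m + 1) * b ^ (q + 2 - (m + 1)) * ((q + 2).choose (m + 1) : C) := by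
    apply Finset.dvd_sum
    intro m hm
    have hm' : m < q := Finset.mem_range.mp hm
    obtain ⟨c, hc⟩ : (q + 2) ∣ (q + 2).choose (m + 1) :=
      hp.dvd_choose_self (by omega) (by omega)
    have h2 : q + 2 - (m + 1) = 2 + (q - m - 1) := by omega
    rw [hc, h2, pow_add]
    push_cast
    exact ⟨a ^ (m + 1) * b ^ (q - m - 1) * c, by ring⟩
  obtain ⟨k, hk⟩ := hdvd
  refine ⟨k, ?_⟩
  rw [add_pow, Finset.sum_range_succ, Finset.sum_range_succ, Finset.sum_range_succ', hk]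
  have e1 : q + 2 - (q + 1) = 1 := by omega
  have e2 : (q + 2).choose (q + 1) = q + 2 := by
    rw [show q + 2 = (q + 1) + 1 from rfl, Nat.choose_succ_self_right]
  simp only [Nat.sub_self, pow_zero, mul_one, Nat.choose_self, Nat.cast_one, e1, pow_one, e2,
    Nat.sub_zero, Nat.choose_zero_right, one_mul]
  push_cast
  ring

/-! ### the standing hypotheses -/

/-- **The standing hypotheses**: `ϖ` is a non-zero-divisor of `C`, `C` is `ϖ`-adically complete,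
`p` is a prime and `p = u ϖ ^ e` with `u` a unit of `C`. -/
structure PthData (p : ℕ) (ϖ : C) (e : ℕ) : Prop where
  prime : p.Prime
  nzd : ∀ c : C, ϖ * c = 0 → c = 0
  complete : IsAdicComplete (Ideal.span {ϖ}) C
  unit : ∃ u : Cˣ, (p : C) = u * ϖ ^ e

section Basic

variable {p : ℕ} {ϖ : C} {e : ℕ}

theorem PthData.pow_nzd (h : PthData p ϖ e) (m : ℕ) (c : C) (hc : ϖ ^ m * c = 0) : c = 0 := by
  induction m with
  | zero => simpa using hc
  | succ m ih =>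
    apply ih
    apply h.nzd
    rw [← mul_assoc, ← pow_succ']
    exact hc

/-- membership in the powers of the ideal `(ϖ)`, as divisibility -/
theorem smodEq_zero_iff (ϖ : C) (m : ℕ) (x : C) :
    x ≡ 0 [SMOD ((Ideal.span {ϖ}) ^ m • ⊤ : Submodule C C)] ↔ ϖ ^ m ∣ x := by
  rw [SModEq.zero, smul_eq_mul, Ideal.mul_top, Ideal.span_singleton_pow,
    Ideal.mem_span_singleton]

theorem smodEq_iff (ϖ : C) (m : ℕ) (x y : C) :
    x ≡ y [SMOD ((Ideal.span {ϖ}) ^ m • ⊤ : Submodule C C)] ↔ ϖ ^ m ∣ x - y := by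
  rw [SModEq.sub_mem, smul_eq_mul, Ideal.mul_top, Ideal.span_singleton_pow,
    Ideal.mem_span_singleton]

/-- separatedness, as divisibility -/
theorem PthData.eq_zero_of_forall_dvd (h : PthData p ϖ e) {x : C} (hx : ∀ m : ℕ, ϖ ^ m ∣ x) :
    x = 0 := by
  haveI := h.complete
  exact IsHausdorff.haus (I := Ideal.span {ϖ}) inferInstance x
    (fun m => (smodEq_zero_iff ϖ m x).2 (hx m))

/-- elements `≡ 1 mod ϖ` are units -/
theorem PthData.isUnit_of_dvd_sub_one (h : PthData p ϖ e) {x : C} (hx : ϖ ∣ x - 1) : IsUnit x := by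
  haveI := h.complete
  have h1 : x - 1 ∈ (⊥ : Ideal C).jacobson :=
    IsAdicComplete.le_jacobson_bot (Ideal.span {ϖ}) (Ideal.mem_span_singleton.2 hx)
  have h2 := Ideal.mem_jacobson_bot.1 h1 1
  simpa using h2

theorem PthData.ne_zero_of_lt (h : PthData p ϖ e) {n : ℕ} (hn : e < (p - 1) * n) : n ≠ 0 := by
  rintro rfl
  simp at hn

/-- **The `p`-th power of `1 + ϖ ^ n z`** for `e < (p - 1) n`. -/
theorem PthData.one_add_pow (h : PthData p ϖ e) {n : ℕ} (hn : e < (p - 1) * n) {u : Cˣ}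
    (hu : (p : C) = u * ϖ ^ e) (z : C) :
    ∃ w : C, (1 + ϖ ^ n * z) ^ p = 1 + ϖ ^ (n + e) * (u * z + ϖ * w) := by
  obtain ⟨k, hk⟩ := add_pow_prime_expand h.prime (1 : C) (ϖ ^ n * z)
  obtain ⟨n', rfl⟩ : ∃ n', n = n' + 1 := ⟨n - 1, by have := h.ne_zero_of_lt hn; omega⟩
  obtain ⟨d, hd⟩ : ∃ d, (n' + 1) * p = n' + 1 + e + 1 + d := by
    have h2 := h.prime.two_le
    refine ⟨(n' + 1) * p - (n' + 1 + e + 1), ?_⟩
    have h3 : (n' + 1) * p = (p - 1) * (n' + 1) + (n' + 1) := by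
      have : p = (p - 1) + 1 := by omega
      conv_lhs => rw [this]
      ring
    omega
  have h4 : (ϖ ^ (n' + 1) * z) ^ p = ϖ ^ (n' + 1 + e + 1 + d) * z ^ p := by
    rw [mul_pow, ← pow_mul, hd]
  refine ⟨u * ϖ ^ n' * z ^ 2 * k + ϖ ^ d * z ^ p, ?_⟩
  rw [hk, h4, one_pow, one_pow, hu]
  ring

/-- the `p`-th power map sends `1 + ϖ ^ n C` into `1 + ϖ ^ (n + e) C` -/
theorem PthData.dvd_pow_sub_one (h : PthData p ϖ e) {n : ℕ} (hn : e < (p - 1) * n) {x : C}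
    (hx : ϖ ^ n ∣ x - 1) : ϖ ^ (n + e) ∣ x ^ p - 1 := by
  obtain ⟨u, hu⟩ := h.unit
  obtain ⟨z, hz⟩ := hx
  obtain ⟨w, hw⟩ := h.one_add_pow hn hu z
  have hx' : x = 1 + ϖ ^ n * z := by rw [← hz]; ring
  rw [hx', hw]
  exact ⟨u * z + ϖ * w, by ring⟩

/-- **(A2)**: a `p`-th root of unity `≡ 1 mod ϖ ^ n`, `e < (p - 1) n`, is `1`. -/
theorem PthData.eq_one_of_pow_eq_one (h : PthData p ϖ e) {n : ℕ} (hn : e < (p - 1) * n) {x : C}
    (hx : ϖ ^ n ∣ x - 1) (hxp : x ^ p = 1) : x = 1 := by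
  obtain ⟨u, hu⟩ := h.unit
  have key : ∀ m : ℕ, ϖ ^ (n + m) ∣ x - 1 := by
    intro m
    induction m with
    | zero => simpa using hx
    | succ m ih =>
      obtain ⟨z, hz⟩ := ih
      have hnm : e < (p - 1) * (n + m) :=
        lt_of_lt_of_le hn (Nat.mul_le_mul_left _ (Nat.le_add_right n m))
      obtain ⟨w, hw⟩ := h.one_add_pow hnm hu z
      have hx' : x = 1 + ϖ ^ (n + m) * z := by rw [← hz]; ring
      rw [← hx', hxp] at hw
      have h0 : ϖ ^ (n + m + e) * (↑u * z + ϖ * w) = 0 := by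
        have := hw
        linear_combination -this
      have h1 := h.pow_nzd _ _ h0
      have hz' : z = ϖ * (-(↑u⁻¹ : C) * w) := by
        have : (↑u⁻¹ : C) * (↑u * z + ϖ * w) = 0 := by rw [h1, mul_zero]
        have h3 : (↑u⁻¹ : C) * ↑u = 1 := by simp
        linear_combination this - z * h3
      refine ⟨-(↑u⁻¹ : C) * w, ?_⟩
      rw [hz, hz']
      ring
  have h0 : x - 1 = 0 := h.eq_zero_of_forall_dvd (fun m =>
    dvd_trans (pow_dvd_pow ϖ (Nat.le_add_left m n)) (key m))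
  exact sub_eq_zero.mp h0

/-! ### (A1): successive approximation -/

/-- one step of the approximation of a `p`-th root -/
theorem PthData.approx_step (h : PthData p ϖ e) {n : ℕ} (hn : e < (p - 1) * n) (y : C) {m : ℕ}
    {z : C} (hz : ϖ ^ (n + e + m) ∣ (1 + ϖ ^ n * z) ^ p - y) :
    ∃ z' : C, ϖ ^ m ∣ z' - z ∧ ϖ ^ (n + e + (m + 1)) ∣ (1 + ϖ ^ n * z') ^ p - y := by
  obtain ⟨u, hu⟩ := h.unit
  obtain ⟨r, hr⟩ := hz
  obtain ⟨n', rfl⟩ : ∃ n', n = n' + 1 := ⟨n - 1, by have := h.ne_zero_of_lt hn; omega⟩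
  set a : C := 1 + ϖ ^ (n' + 1) * z with ha
  set t : C := -(↑u⁻¹ : C) * r with ht
  obtain ⟨k, hk⟩ := add_pow_prime_expand h.prime a (ϖ ^ (n' + 1 + m) * t)
  -- `a ^ (p - 1) = 1 + ϖ s`
  obtain ⟨s, hs⟩ : ϖ ∣ a ^ (p - 1) - 1 := by
    have h1 : a - 1 ∣ a ^ (p - 1) - 1 ^ (p - 1) := sub_dvd_pow_sub_pow a 1 (p - 1)
    rw [one_pow] at h1
    refine dvd_trans ?_ h1
    exact ⟨ϖ ^ n' * z, by rw [ha]; ring⟩
  obtain ⟨d, hd⟩ : ∃ d, (n' + 1 + m) * p = n' + 1 + e + (m + 1) + d := by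
    have h2 := h.prime.two_le
    refine ⟨(n' + 1 + m) * p - (n' + 1 + e + (m + 1)), ?_⟩
    have hp1 : p - 1 + 1 = p := by omega
    have h3 : (n' + 1 + m) * p = (p - 1) * (n' + 1) + (n' + 1) + m * p := by
      calc (n' + 1 + m) * p = (n' + 1 + m) * (p - 1 + 1) := by rw [hp1]
        _ = (p - 1) * (n' + 1) + (n' + 1) + m * (p - 1 + 1) := by ring
        _ = (p - 1) * (n' + 1) + (n' + 1) + m * p := by rw [hp1]
    have h4 : m ≤ m * p := Nat.le_mul_of_pos_right m (by omega)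
    omega
  have h5 : (ϖ ^ (n' + 1 + m) * t) ^ p = ϖ ^ (n' + 1 + e + (m + 1) + d) * t ^ p := by
    rw [mul_pow, ← pow_mul, hd]
  have hut : (↑u : C) * t = -r := by
    rw [ht]
    have h3 : (↑u : C) * ↑u⁻¹ = 1 := by simp
    linear_combination (-r) * h3
  refine ⟨z + ϖ ^ m * t, ⟨t, by ring⟩, ?_⟩
  have e1 : 1 + ϖ ^ (n' + 1) * (z + ϖ ^ m * t) = a + ϖ ^ (n' + 1 + m) * t := by
    rw [ha]; ring
  rw [e1, hk, h5, hu]
  refine ⟨↑u * s * t + ↑u * ϖ ^ (n' + m) * t ^ 2 * k + ϖ ^ d * t ^ p, ?_⟩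
  have hs' : a ^ (p - 1) = 1 + ϖ * s := by rw [← hs]; ring
  rw [hs']
  linear_combination hr + ϖ ^ (n' + 1 + e + m) * hut

/-- **(A1), surjectivity**: every `y ≡ 1 mod ϖ ^ (n + e)` is the `p`-th power of some
`x ≡ 1 mod ϖ ^ n` (`e < (p - 1) n`). -/
theorem PthData.exists_pow_eq (h : PthData p ϖ e) {n : ℕ} (hn : e < (p - 1) * n) {y : C}
    (hy : ϖ ^ (n + e) ∣ y - 1) : ∃ x : C, ϖ ^ n ∣ x - 1 ∧ x ^ p = y := by
  haveI := h.complete
  -- the approximating sequence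
  have step : ∀ (m : ℕ) (z : {z : C // ϖ ^ (n + e + m) ∣ (1 + ϖ ^ n * z) ^ p - y}),
      ∃ z' : {z : C // ϖ ^ (n + e + (m + 1)) ∣ (1 + ϖ ^ n * z) ^ p - y},
        ϖ ^ m ∣ (z' : C) - z := by
    rintro m ⟨z, hz⟩
    obtain ⟨z', h1, h2⟩ := h.approx_step hn y hz
    exact ⟨⟨z', h2⟩, h1⟩
  choose next hnext using step
  have h0 : ϖ ^ (n + e + 0) ∣ (1 + ϖ ^ n * (0 : C)) ^ p - y := by
    have : (1 + ϖ ^ n * (0 : C)) ^ p - y = -(y - 1) := by
      rw [mul_zero, add_zero, one_pow]; ring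
    rw [this, add_zero]
    exact (dvd_neg).2 hy
  let f : (m : ℕ) → {z : C // ϖ ^ (n + e + m) ∣ (1 + ϖ ^ n * z) ^ p - y} :=
    fun m => Nat.rec (motive := fun m => {z : C // ϖ ^ (n + e + m) ∣ (1 + ϖ ^ n * z) ^ p - y})
      ⟨0, h0⟩ (fun m z => next m z) m
  have hf : ∀ m, ϖ ^ m ∣ (f (m + 1)).1 - (f m).1 := fun m => hnext m (f m)
  have hcauchy : ∀ {m k : ℕ}, m ≤ k → ϖ ^ m ∣ (f m : C) - (f k : C) := by
    intro m k hmk
    induction k, hmk using Nat.le_induction with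
    | base => simp
    | succ k hk ih =>
      have h1 : ϖ ^ m ∣ (f (k + 1) : C) - (f k : C) :=
        dvd_trans (pow_dvd_pow ϖ hk) (hf k)
      have : (f m : C) - (f (k + 1) : C) = ((f m : C) - (f k : C)) - ((f (k + 1) : C) - (f k : C)) := by
        ring
      rw [this]
      exact dvd_sub ih h1
  obtain ⟨L, hL⟩ := IsPrecomplete.prec (I := Ideal.span {ϖ}) inferInstance
    (f := fun m => (f m : C)) (fun {m k} hmk => (smodEq_iff ϖ m _ _).2 (hcauchy hmk))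
  have hL' : ∀ m, ϖ ^ m ∣ (f m : C) - L := fun m => (smodEq_iff ϖ m _ _).1 (hL m)
  refine ⟨1 + ϖ ^ n * L, ⟨L, by ring⟩, ?_⟩
  have key : ∀ m : ℕ, ϖ ^ m ∣ (1 + ϖ ^ n * L) ^ p - y := by
    intro m
    have h1 : ϖ ^ m ∣ (1 + ϖ ^ n * (f m : C)) ^ p - y :=
      dvd_trans (pow_dvd_pow ϖ (Nat.le_add_left m (n + e))) (f m).2
    have h2 : ϖ ^ m ∣ (1 + ϖ ^ n * (f m : C)) ^ p - (1 + ϖ ^ n * L) ^ p := by
      refine dvd_trans ?_ (sub_dvd_pow_sub_pow _ _ p)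
      obtain ⟨c, hc⟩ := hL' m
      exact ⟨ϖ ^ n * c, by linear_combination ϖ ^ n * hc⟩
    have : (1 + ϖ ^ n * L) ^ p - y = ((1 + ϖ ^ n * (f m : C)) ^ p - y) -
        ((1 + ϖ ^ n * (f m : C)) ^ p - (1 + ϖ ^ n * L) ^ p) := by ring
    rw [this]
    exact dvd_sub h1 h2
  exact sub_eq_zero.mp (h.eq_zero_of_forall_dvd key)

/-- **(A1)**: for `e < (p - 1) n` the `p`-th power map is a bijection
`1 + ϖ ^ n C → 1 + ϖ ^ (n + e) C`. -/
theorem PthData.existsUnique_pow_eq (h : PthData p ϖ e) {n : ℕ} (hn : e < (p - 1) * n) {y : C}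
    (hy : ϖ ^ (n + e) ∣ y - 1) : ∃! x : C, ϖ ^ n ∣ x - 1 ∧ x ^ p = y := by
  obtain ⟨x, hx1, hxp⟩ := h.exists_pow_eq hn hy
  refine ⟨x, ⟨hx1, hxp⟩, ?_⟩
  rintro x' ⟨hx1', hxp'⟩
  have hn0 := h.ne_zero_of_lt hn
  have hϖn : ϖ ∣ ϖ ^ n := dvd_pow_self ϖ hn0
  obtain ⟨v, rfl⟩ := h.isUnit_of_dvd_sub_one (dvd_trans hϖn hx1)
  have h1 : ϖ ^ n ∣ x' * (↑v⁻¹ : C) - 1 := by
    have : x' * (↑v⁻¹ : C) - 1 = ((x' - 1) - ((v : C) - 1)) * (↑v⁻¹ : C) := by
      have h3 : (↑v : C) * ↑v⁻¹ = 1 := by simp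
      linear_combination h3
    rw [this]
    exact Dvd.dvd.mul_right (dvd_sub hx1' hx1) _
  have h2 : (x' * (↑v⁻¹ : C)) ^ p = 1 := by
    rw [mul_pow, hxp', ← hxp, ← mul_pow]
    simp
  have h3 := h.eq_one_of_pow_eq_one hn h1 h2
  have h4 : (↑v : C) * ↑v⁻¹ = 1 := by simp
  linear_combination (↑v : C) * h3 - x' * h4

end Basic

/-! ### the congruence subgroups of the unit group -/

/-- **The congruence subgroup** `{x ∈ Cˣ | x ≡ 1 mod ϖ ^ n}`. -/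
def congrUnits (ϖ : C) (n : ℕ) : Subgroup Cˣ where
  carrier := {x | ϖ ^ n ∣ (x : C) - 1}
  one_mem' := by simp
  mul_mem' := by
    intro x y hx hy
    have : ((x * y : Cˣ) : C) - 1 = ((x : C) - 1) * (y : C) + ((y : C) - 1) := by
      push_cast; ring
    show ϖ ^ n ∣ ((x * y : Cˣ) : C) - 1
    rw [this]
    exact dvd_add (Dvd.dvd.mul_right hx _) hy
  inv_mem' := by
    intro x hx
    have : ((x⁻¹ : Cˣ) : C) - 1 = -((x : C) - 1) * ((x⁻¹ : Cˣ) : C) := by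
      have h3 : (x : C) * ((x⁻¹ : Cˣ) : C) = 1 := by simp
      linear_combination h3
    show ϖ ^ n ∣ ((x⁻¹ : Cˣ) : C) - 1
    rw [this]
    exact Dvd.dvd.mul_right ((dvd_neg).2 hx) _

theorem mem_congrUnits {ϖ : C} {n : ℕ} {x : Cˣ} : x ∈ congrUnits ϖ n ↔ ϖ ^ n ∣ (x : C) - 1 :=
  Iff.rfl

theorem congrUnits_anti (ϖ : C) {m n : ℕ} (hmn : m ≤ n) : congrUnits ϖ n ≤ congrUnits ϖ m :=
  fun _ hx => dvd_trans (pow_dvd_pow ϖ hmn) hx

section Units

variable {p : ℕ} {ϖ : C} {e : ℕ}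

/-- the `p`-th power map sends `congrUnits ϖ n` into `congrUnits ϖ (n + e)` -/
theorem PthData.pow_mem_congrUnits (h : PthData p ϖ e) {n : ℕ} (hn : e < (p - 1) * n) {x : Cˣ}
    (hx : x ∈ congrUnits ϖ n) : x ^ p ∈ congrUnits ϖ (n + e) := by
  rw [mem_congrUnits, Units.val_pow_eq_pow_val]
  exact h.dvd_pow_sub_one hn hx

/-- **(A2), unit form** -/
theorem PthData.eq_one_of_mem_congrUnits (h : PthData p ϖ e) {n : ℕ} (hn : e < (p - 1) * n)
    {x : Cˣ} (hx : x ∈ congrUnits ϖ n) (hxp : x ^ p = 1) : x = 1 := by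
  apply Units.ext
  apply h.eq_one_of_pow_eq_one hn hx
  rw [← Units.val_pow_eq_pow_val, hxp, Units.val_one]

/-- **(A1), unit form**: every element of `congrUnits ϖ (n + e)` is the `p`-th power of an
element of `congrUnits ϖ n`. -/
theorem PthData.exists_mem_congrUnits_pow_eq (h : PthData p ϖ e) {n : ℕ} (hn : e < (p - 1) * n)
    {y : Cˣ} (hy : y ∈ congrUnits ϖ (n + e)) : ∃ x ∈ congrUnits ϖ n, x ^ p = y := by
  obtain ⟨x, hx1, hxp⟩ := h.exists_pow_eq hn hy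
  have hn0 := h.ne_zero_of_lt hn
  obtain ⟨v, rfl⟩ := h.isUnit_of_dvd_sub_one (dvd_trans (dvd_pow_self ϖ hn0) hx1)
  refine ⟨v, hx1, ?_⟩
  apply Units.ext
  rw [Units.val_pow_eq_pow_val, hxp]

/-- **(A1), unit form**: the `p`-th power map `congrUnits ϖ n → congrUnits ϖ (n + e)` is
injective. -/
theorem PthData.eq_of_pow_eq (h : PthData p ϖ e) {n : ℕ} (hn : e < (p - 1) * n)
    {x x' : Cˣ} (hx : x ∈ congrUnits ϖ n) (hx' : x' ∈ congrUnits ϖ n) (hpow : x ^ p = x' ^ p) :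
    x = x' := by
  have h1 : x'⁻¹ * x ∈ congrUnits ϖ n := (congrUnits ϖ n).mul_mem ((congrUnits ϖ n).inv_mem hx') hx
  have h2 : (x'⁻¹ * x) ^ p = 1 := by
    rw [mul_pow, hpow, inv_pow, inv_mul_cancel]
  have h3 := h.eq_one_of_mem_congrUnits hn h1 h2
  exact (inv_mul_eq_one.mp h3).symm

end Units

/-! ### (A3): lifting approximate points -/

section Lifting

variable {p : ℕ} {ϖ : C} {e : ℕ} {C₂ : Type*} [CommRing C₂] {ϖ₂ : C₂}

/-- **(A3), the lifting lemma.**  `ψ`, `ι`, `ε` group homomorphisms preserving the congruence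
subgroups with `x ^ p = ε x * (ι (ψ x))⁻¹` (for a Hopf order: `ψ x = Δ x · (x ⊗ x)⁻¹`, `ι` induced by
the `p`-fold multiplication, `ε` the counit).  If `x₀` is an approximate point modulo `ϖ ^ M`
(`ψ x₀ ≡ 1`, `ε x₀ ≡ 1`) and `e < (p - 1) (M - e)`, there is a TRUE point `x ∈ ker ψ` with
`x ≡ x₀ mod ϖ ^ (M - e)`. -/
theorem exists_ker_of_approx (h : PthData p ϖ e) (h₂ : PthData p ϖ₂ e)
    (ψ : Cˣ →* C₂ˣ) (ι : C₂ˣ →* Cˣ) (ε : Cˣ →* Cˣ)
    (hψ : ∀ (n : ℕ) (x : Cˣ), x ∈ congrUnits ϖ n → ψ x ∈ congrUnits ϖ₂ n)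
    (hι : ∀ (n : ℕ) (x : C₂ˣ), x ∈ congrUnits ϖ₂ n → ι x ∈ congrUnits ϖ n)
    (hrel : ∀ x : Cˣ, x ^ p = ε x * (ι (ψ x))⁻¹)
    {M : ℕ} (hM : e < (p - 1) * (M - e)) (x₀ : Cˣ)
    (h1 : ψ x₀ ∈ congrUnits ϖ₂ M) (h2 : ε x₀ ∈ congrUnits ϖ M) :
    ∃ x : Cˣ, ψ x = 1 ∧ x ^ p = 1 ∧ x₀⁻¹ * x ∈ congrUnits ϖ (M - e) := by
  have hMe : M - e + e = M := by
    have := h.ne_zero_of_lt hM
    omega
  -- `x₀ ^ p ≡ 1 mod ϖ ^ M`
  have h3 : x₀ ^ p ∈ congrUnits ϖ (M - e + e) := by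
    rw [hMe, hrel]
    exact (congrUnits ϖ M).mul_mem h2 ((congrUnits ϖ M).inv_mem (hι M _ h1))
  obtain ⟨y, hy, hyp⟩ := h.exists_mem_congrUnits_pow_eq hM h3
  refine ⟨x₀ * y⁻¹, ?_, ?_, ?_⟩
  · -- `ψ x` is a `p`-th root of unity `≡ 1 mod ϖ₂ ^ (M - e)`
    have h4 : ψ (x₀ * y⁻¹) ∈ congrUnits ϖ₂ (M - e) := by
      rw [map_mul, map_inv]
      exact (congrUnits ϖ₂ (M - e)).mul_mem (congrUnits_anti ϖ₂ (Nat.sub_le M e) h1)
        ((congrUnits ϖ₂ (M - e)).inv_mem (hψ _ _ hy))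
    have h5 : ψ (x₀ * y⁻¹) ^ p = 1 := by
      rw [← map_pow, mul_pow, inv_pow, hyp, mul_inv_cancel, map_one]
    exact h₂.eq_one_of_mem_congrUnits hM h4 h5
  · rw [mul_pow, inv_pow, hyp, mul_inv_cancel]
  · rw [← mul_assoc, inv_mul_cancel, one_mul]
    exact (congrUnits ϖ (M - e)).inv_mem hy

/-- **(A2) for points**: two points of `ker ψ` congruent modulo `ϖ ^ n`, `e < (p - 1) n`, are
equal (`hε`: the counit is `1` on points). -/
theorem eq_of_ker_of_congr (h : PthData p ϖ e)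
    (ψ : Cˣ →* C₂ˣ) (ι : C₂ˣ →* Cˣ) (ε : Cˣ →* Cˣ)
    (hrel : ∀ x : Cˣ, x ^ p = ε x * (ι (ψ x))⁻¹) (hε : ∀ x : Cˣ, ψ x = 1 → ε x = 1)
    {n : ℕ} (hn : e < (p - 1) * n) {x x' : Cˣ} (hx : ψ x = 1) (hx' : ψ x' = 1)
    (hxx' : x'⁻¹ * x ∈ congrUnits ϖ n) : x = x' := by
  have hp : ∀ z : Cˣ, ψ z = 1 → z ^ p = 1 := by
    intro z hz
    rw [hrel, hz, hε z hz, map_one, inv_one, mul_one]
  have h2 : (x'⁻¹ * x) ^ p = 1 := by
    rw [mul_pow, inv_pow, hp x hx, hp x' hx', inv_one, mul_one]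
  have h3 := h.eq_one_of_mem_congrUnits hn hxx' h2
  exact (inv_mul_eq_one.mp h3).symm

/-- the same without the counit: two `p`-torsion units congruent modulo `ϖ ^ n` are equal -/
theorem eq_of_pow_eq_one_of_congr (h : PthData p ϖ e) {n : ℕ} (hn : e < (p - 1) * n)
    {x x' : Cˣ} (hx : x ^ p = 1) (hx' : x' ^ p = 1) (hxx' : x'⁻¹ * x ∈ congrUnits ϖ n) :
    x = x' := by
  have h2 : (x'⁻¹ * x) ^ p = 1 := by
    rw [mul_pow, inv_pow, hx, hx', inv_one, mul_one]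
  have h3 := h.eq_one_of_mem_congrUnits hn hxx' h2
  exact (inv_mul_eq_one.mp h3).symm

/-- **The counting form of (A3)** (used for the corollary `(P_m)`): a family `ρ a` of approximate
points modulo `ϖ ^ M` which are pairwise incongruent modulo `ϖ ^ (M - e)` lifts to an INJECTIVE
family of true points. -/
theorem exists_injective_lift (h : PthData p ϖ e) (h₂ : PthData p ϖ₂ e)
    (ψ : Cˣ →* C₂ˣ) (ι : C₂ˣ →* Cˣ) (ε : Cˣ →* Cˣ)
    (hψ : ∀ (n : ℕ) (x : Cˣ), x ∈ congrUnits ϖ n → ψ x ∈ congrUnits ϖ₂ n)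
    (hι : ∀ (n : ℕ) (x : C₂ˣ), x ∈ congrUnits ϖ₂ n → ι x ∈ congrUnits ϖ n)
    (hrel : ∀ x : Cˣ, x ^ p = ε x * (ι (ψ x))⁻¹)
    {M : ℕ} (hM : e < (p - 1) * (M - e)) {X : Type*} (ρ : X → Cˣ)
    (h1 : ∀ a, ψ (ρ a) ∈ congrUnits ϖ₂ M) (h2 : ∀ a, ε (ρ a) ∈ congrUnits ϖ M)
    (hsep : ∀ a b, (ρ a)⁻¹ * ρ b ∈ congrUnits ϖ (M - e) → a = b) :
    ∃ f : X → Cˣ, Function.Injective f ∧
      ∀ a, ψ (f a) = 1 ∧ f a ^ p = 1 ∧ (ρ a)⁻¹ * f a ∈ congrUnits ϖ (M - e) := by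
  choose f hf using fun a =>
    exists_ker_of_approx h h₂ ψ ι ε hψ hι hrel hM (ρ a) (h1 a) (h2 a)
  refine ⟨f, ?_, hf⟩
  intro a b hab
  apply hsep
  have ha := (hf a).2.2
  have hb := (hf b).2.2
  rw [hab] at ha
  have : (ρ a)⁻¹ * ρ b = ((ρ a)⁻¹ * f b) * ((ρ b)⁻¹ * f b)⁻¹ := by
    rw [mul_inv_rev, inv_inv, mul_assoc, ← mul_assoc (f b), mul_inv_cancel, one_mul]
  rw [this]
  exact (congrUnits ϖ (M - e)).mul_mem ha ((congrUnits ϖ (M - e)).inv_mem hb)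

end Lifting

/-! ### the intended instance: a finite free algebra over a complete base -/

section Instance

variable {𝒪 : Type*} [CommRing 𝒪] [IsDomain 𝒪] {D : Type*} [CommRing D] [Algebra 𝒪 D]

/-- **`PthData` for a finite free algebra `D` over a `ϖ`-adically complete domain `𝒪`** with
`p = u ϖ ^ e` (e.g. `𝒪` a complete discrete valuation ring of mixed characteristic, `ϖ` a
uniformiser, `e` the absolute ramification index, `D = (dual Hopf order) ⊗ 𝒪`). -/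
theorem pthData_of_basis {p : ℕ} (hp : p.Prime) {ϖ : 𝒪} (hϖ : ϖ ≠ 0)
    [IsAdicComplete (Ideal.span {ϖ}) 𝒪] {e : ℕ} (u : 𝒪ˣ) (hu : (p : 𝒪) = u * ϖ ^ e)
    {ι : Type*} [Finite ι] (b : Module.Basis ι 𝒪 D) :
    PthData p (algebraMap 𝒪 D ϖ) e := by
  classical
  haveI := Fintype.ofFinite ι
  haveI : Module.Free 𝒪 D := Module.Free.of_basis b
  have hdvd : ∀ (m : ℕ) (x : D), (algebraMap 𝒪 D ϖ) ^ m ∣ x ↔ ∀ i, ϖ ^ m ∣ b.repr x i := by
    intro m x
    constructor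
    · rintro ⟨c, rfl⟩ i
      refine ⟨b.repr c i, ?_⟩
      rw [← map_pow, ← Algebra.smul_def, map_smul]
      rfl
    · intro hx
      choose c hc using hx
      refine ⟨∑ i, c i • b i, ?_⟩
      conv_lhs => rw [← b.sum_repr x]
      rw [← map_pow, ← Algebra.smul_def, Finset.smul_sum]
      refine Finset.sum_congr rfl (fun i _ => ?_)
      rw [hc i, smul_smul]
  have hH : IsHausdorff (Ideal.span {algebraMap 𝒪 D ϖ}) D := by
    refine ⟨?_⟩
    -- Hausdorff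
    intro x hx
    have h1 : ∀ m, (algebraMap 𝒪 D ϖ) ^ m ∣ x := fun m => (smodEq_zero_iff _ m x).1 (hx m)
    have h2 : ∀ i, b.repr x i = 0 := by
      intro i
      apply IsHausdorff.haus (I := Ideal.span {ϖ}) inferInstance
      intro m
      exact (smodEq_zero_iff ϖ m _).2 ((hdvd m x).1 (h1 m) i)
    apply b.repr.injective
    ext i
    rw [h2 i]
    simp
  have hP : IsPrecomplete (Ideal.span {algebraMap 𝒪 D ϖ}) D := by
    refine ⟨?_⟩
    -- precomplete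
    intro f hf
    have hf' : ∀ {m k : ℕ}, m ≤ k → (algebraMap 𝒪 D ϖ) ^ m ∣ f m - f k :=
      fun hmk => (smodEq_iff _ _ _ _).1 (hf hmk)
    have hcoord : ∀ i, ∃ L : 𝒪, ∀ m, ϖ ^ m ∣ b.repr (f m) i - L := by
      intro i
      obtain ⟨L, hL⟩ := IsPrecomplete.prec (I := Ideal.span {ϖ}) inferInstance
        (f := fun m => b.repr (f m) i) (fun {m k} hmk => by
          rw [smodEq_iff]
          have := (hdvd m (f m - f k)).1 (hf' hmk) i
          simpa using this)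
      exact ⟨L, fun m => (smodEq_iff ϖ m _ _).1 (hL m)⟩
    choose L hL using hcoord
    refine ⟨∑ i, L i • b i, fun m => ?_⟩
    rw [smodEq_iff, hdvd]
    intro i
    have : b.repr (f m - ∑ j, L j • b j) i = b.repr (f m) i - L i := by
      rw [map_sub, Finsupp.sub_apply, map_sum, Finsupp.finsetSum_apply]
      congr 1
      rw [Finset.sum_eq_single i]
      · simp
      · intro j _ hji
        simp [hji]
      · intro hi
        exact absurd (Finset.mem_univ i) hi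
    rw [this]
    exact hL i m
  refine ⟨hp, ?_, { toIsHausdorff := hH, toIsPrecomplete := hP },
    ⟨(Units.map (algebraMap 𝒪 D).toMonoidHom u), ?_⟩⟩
  · intro c hc
    rw [← Algebra.smul_def] at hc
    exact (smul_eq_zero.mp hc).resolve_left hϖ
  · rw [Units.coe_map]
    simp only [RingHom.toMonoidHom_eq_coe, MonoidHom.coe_coe]
    rw [← map_pow, ← map_mul, ← hu, map_natCast]

/-- the same for a finite free algebra, without a chosen basis -/
theorem pthData_of_finite_free {p : ℕ} (hp : p.Prime) {ϖ : 𝒪} (hϖ : ϖ ≠ 0)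
    [IsAdicComplete (Ideal.span {ϖ}) 𝒪] {e : ℕ} (u : 𝒪ˣ) (hu : (p : 𝒪) = u * ϖ ^ e)
    [Module.Free 𝒪 D] [Module.Finite 𝒪 D] :
    PthData p (algebraMap 𝒪 D ϖ) e :=
  pthData_of_basis hp hϖ u hu (Module.Free.chooseBasis 𝒪 D)

end Instance

end Fermat.Agent.S56.Flat.PthPower
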