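/-
S56 / FLAT, leaf [FL-A] part 1, addendum (helper13): the three statements of
`S56/Flat/PthPower.lean` **in the binder shape requested by helper6 (#2473)** for `S56/Flat/LemmaA`:
ideal membership `x - 1 ∈ Ideal.span {π ^ n}`, `π ∈ nonZeroDivisors C`, `(p : C) = π ^ e * u` with
`IsUnit u`, `[IsAdicComplete (Ideal.span {π}) C]`, `e < n * (p - 1)`.
-/
import Mathlib
import Fermat.Agent.S56.Flat.PthPower

set_option autoImplicit false

namespace Fermat.Agent.S56.Flat.PthPowerExtra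

open Fermat.Agent.S56.Flat.PthPower

variable {C : Type*} [CommRing C] {p : ℕ} (hp : p.Prime) {π u : C} {e : ℕ}
  (hπ : π ∈ nonZeroDivisors C) (hu : IsUnit u) (hpe : (p : C) = π ^ e * u)
  [IsAdicComplete (Ideal.span {π}) C] {n : ℕ} (hn : e < n * (p - 1))

include hp hπ hu hpe in
/-- the hypotheses in the packaged form of `PthPower` -/
theorem pthData : PthData p π e := by
  obtain ⟨v, rfl⟩ := hu
  refine ⟨hp, fun c hc => ?_, inferInstance, ⟨v, by rw [hpe, mul_comm]⟩⟩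
  have h1 : c * π = 0 := by rw [mul_comm]; exact hc
  exact (mul_right_mem_nonZeroDivisors_eq_zero_iff hπ).mp h1

include hp hπ hu hpe hn in
/-- the `p`-th power map sends `1 + π ^ n C` into `1 + π ^ (n + e) C` -/
theorem pow_p_sub_one_mem {x : C} (hx : x - 1 ∈ Ideal.span {π ^ n}) :
    x ^ p - 1 ∈ Ideal.span {π ^ (n + e)} := by
  rw [Ideal.mem_span_singleton] at hx ⊢
  exact (pthData hp hπ hu hpe).dvd_pow_sub_one (by rwa [mul_comm]) hx

include hp hπ hu hpe hn in
/-- **(A1), injectivity** -/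
theorem eq_of_pow_p_eq {x y : C} (hx : x - 1 ∈ Ideal.span {π ^ n})
    (hy : y - 1 ∈ Ideal.span {π ^ n}) (h : x ^ p = y ^ p) : x = y := by
  rw [Ideal.mem_span_singleton] at hx hy
  have hd := pthData hp hπ hu hpe
  have hn' : e < (p - 1) * n := by rwa [mul_comm]
  have hyp : π ^ (n + e) ∣ y ^ p - 1 := hd.dvd_pow_sub_one hn' hy
  obtain ⟨z, -, hz⟩ := hd.existsUnique_pow_eq hn' hyp
  rw [hz x ⟨hx, h⟩, hz y ⟨hy, rfl⟩]

include hp hπ hu hpe hn in
/-- **(A1), surjectivity onto `1 + π ^ (n + e) C`** -/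
theorem exists_pow_p_eq {a : C} (ha : a - 1 ∈ Ideal.span {π ^ (n + e)}) :
    ∃ x, x - 1 ∈ Ideal.span {π ^ n} ∧ x ^ p = a := by
  rw [Ideal.mem_span_singleton] at ha
  obtain ⟨x, hx, hxa⟩ := (pthData hp hπ hu hpe).exists_pow_eq (by rwa [mul_comm]) ha
  exact ⟨x, Ideal.mem_span_singleton.2 hx, hxa⟩

include hp hπ hu hpe hn in
/-- **(A2)**: a `p`-th root of unity `≡ 1 mod π ^ n` is `1` -/
theorem eq_one_of_pow_p_eq_one {x : C} (hx : x - 1 ∈ Ideal.span {π ^ n}) (h : x ^ p = 1) :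
    x = 1 := by
  rw [Ideal.mem_span_singleton] at hx
  exact (pthData hp hπ hu hpe).eq_one_of_pow_eq_one (by rwa [mul_comm]) hx h

include hp hπ hu hpe in
/-- elements `≡ 1 mod π` are units -/
theorem isUnit_of_sub_one_mem {x : C} (hx : x - 1 ∈ Ideal.span {π}) : IsUnit x :=
  (pthData hp hπ hu hpe).isUnit_of_dvd_sub_one (Ideal.mem_span_singleton.1 hx)

end Fermat.Agent.S56.Flat.PthPowerExtra
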