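/-
S56 / block (III)-FLAT, leaf [FL-A] (helper6), part 2c: **Lemma A, ready to use.**

* `pthRoot_of_complete` : the package `LemmaA.PthRoot` for a `π`-adically complete ring with
  `p = π^e · unit` (helper13's `PthPowerExtra`), `pthRoot_conv` : for the convolution rings
  `WithConv (K →ₗ[R] B)` over such a `B` (`ConvRing.isAdicComplete`);
* `PRing B p π e` : the hypotheses on the coefficient ring, bundled; the final forms
  `eq_of_forall_sub_mem` (A2), `eq_of_forall_sub_mem_of_unramified` (A2'),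
  `exists_algHom_of_approx` / `exists_algHom_of_quotient` (A3), `card_le_of_algHom`
  (Cor = abstract Fontaine property `(P_m)`), with all `PthRoot` hypotheses discharged;
* `killed_order` : a Hopf order `Hs ⊂ Map(M, ℚ̄)` (S19 `Abs.IsHopfOrder`, Hopf algebra structure
  `Abs.orderHopfAlgebra`) on a group `M` killed by `p` is `ConvRing.Killed`.
-/
import Mathlib
import Fermat.Agent.S56.Flat.LemmaA
import Fermat.Agent.S56.Flat.PthPowerExtra
import Fermat.Agent.S19.Abs.Model

set_option autoImplicit false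
set_option linter.unusedSectionVars false
set_option linter.style.haveILetI false

open scoped TensorProduct
open GaloisRep WithConv

namespace Fermat.Agent.S56.Flat.LemmaAInst

open Fermat.Agent.S19.Abs Fermat.Agent.S56.Flat.ConvRing Fermat.Agent.S56.Flat.LemmaA

/-! ### the package (A1) -/

section Pth

/-- **(A1)** for a complete ring (helper13 `PthPowerExtra`) -/
theorem pthRoot_of_complete {C : Type*} [CommRing C] {p : ℕ} (hp : p.Prime) {π u : C} {e : ℕ}
    (hπ : π ∈ nonZeroDivisors C) (hu : IsUnit u) (hpe : (p : C) = π ^ e * u)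
    [IsAdicComplete (Ideal.span {π}) C] : PthRoot C p π e where
  isUnit _ hx := PthPowerExtra.isUnit_of_sub_one_mem hp hπ hu hpe hx
  inj _ hn _ _ hx hy h := PthPowerExtra.eq_of_pow_p_eq hp hπ hu hpe hn hx hy h
  surj _ hn _ ha := PthPowerExtra.exists_pow_p_eq hp hπ hu hpe hn ha

/-- the hypotheses on the coefficient ring `B`: `π` a non-zero-divisor, `p = π^e · unit`,
`B` `π`-adically complete (e.g. `B = 𝒪_E`, `π` a uniformiser, `e = e(E/ℚ_p)`). -/
structure PRing (B : Type*) [CommRing B] (p : ℕ) (π : B) (e : ℕ) : Prop where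
  prime : p.Prime
  nzd : π ∈ nonZeroDivisors B
  assoc : ∃ u : B, IsUnit u ∧ (p : B) = π ^ e * u
  complete : IsAdicComplete (Ideal.span {π}) B

variable {R : Type*} [CommRing R]
variable {K : Type*} [AddCommGroup K] [Module R K] [Coalgebra R K] [Coalgebra.IsCocomm R K]
variable {B : Type*} [CommRing B] [Algebra R B] {p : ℕ} {π : B} {e : ℕ}

/-- **(A1)** for the convolution rings over `B` -/
theorem pthRoot_conv (hB : PRing B p π e) :
    PthRoot (WithConv (K →ₗ[R] B)) p (algebraMap B (WithConv (K →ₗ[R] B)) π) e := by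
  obtain ⟨u, hu, hpe⟩ := hB.assoc
  haveI := hB.complete
  haveI := isAdicComplete (R := R) (K := K) hB.nzd
  refine pthRoot_of_complete hB.prime (algebraMap_mem_nonZeroDivisors hB.nzd)
    (hu.map (algebraMap B (WithConv (K →ₗ[R] B)))) ?_
  rw [← map_pow, ← map_mul, ← hpe, map_natCast]

end Pth

/-! ### Lemma A, final forms -/

section Final

variable {R : Type*} [CommRing R] {H : Type*} [CommRing H] [Bialgebra R H]
  [Coalgebra.IsCocomm R H]
variable {B : Type*} [CommRing B] [Algebra R B] {p : ℕ} {π : B} {e : ℕ}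

/-- **(A2)**: two points congruent modulo `π^n`, `e < n (p-1)`, are equal. -/
theorem eq_of_forall_sub_mem (hB : PRing B p π e) (hH : Killed R H p) {n : ℕ}
    (hn : e < n * (p - 1)) (x x' : H →ₐ[R] B) (h : ∀ a, x a - x' a ∈ Ideal.span {π ^ n}) :
    x = x' :=
  LemmaA.eq_of_forall_sub_mem hB.prime.pos hH hB.nzd (pthRoot_conv hB) hn x x' h

/-- **(A2')**: if `p` is a uniformiser (`e = 1`) and `p ≥ 3`, two points congruent modulo `π` are
equal. -/
theorem eq_of_forall_sub_mem_of_unramified (hB : PRing B p π 1) (hH : Killed R H p) (hp3 : 3 ≤ p)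
    (x x' : H →ₐ[R] B) (h : ∀ a, x a - x' a ∈ Ideal.span {π}) : x = x' :=
  eq_of_forall_sub_mem hB hH (n := 1) (by omega) x x' (by simpa using h)

/-- **(A3)**: a linear map which is multiplicative and unital modulo `π^M`, `p e < M (p-1)`, agrees
modulo `π^(M-e)` with a true point. -/
theorem exists_algHom_of_approx (hB : PRing B p π e) (hH : Killed R H p) {M : ℕ}
    (hM : p * e < M * (p - 1)) (x₀ : H →ₗ[R] B)
    (hmul : ∀ a b, x₀ (a * b) - x₀ a * x₀ b ∈ Ideal.span {π ^ M})
    (h1 : x₀ 1 - 1 ∈ Ideal.span {π ^ M}) :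
    ∃ x : H →ₐ[R] B, ∀ a, x a - x₀ a ∈ Ideal.span {π ^ (M - e)} :=
  LemmaA.exists_algHom_of_approx hB.prime.pos hH hB.nzd (pthRoot_conv hB) (pthRoot_conv hB) hM x₀
    hmul h1

/-- **(A3)** from a point modulo `π^M`. -/
theorem exists_algHom_of_quotient [Module.Projective R H] (hB : PRing B p π e)
    (hH : Killed R H p) {M : ℕ} (hM : p * e < M * (p - 1))
    (xb : H →ₐ[R] B ⧸ Ideal.span {π ^ M}) :
    ∃ x : H →ₐ[R] B, ∀ a, ∃ b : B, xb a = Ideal.Quotient.mk _ b ∧
      x a - b ∈ Ideal.span {π ^ (M - e)} :=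
  LemmaA.exists_algHom_of_quotient hB.prime.pos hH hB.nzd (pthRoot_conv hB) (pthRoot_conv hB) hM xb

/-- **Cor (abstract `(P_m)`).** -/
theorem card_le_of_algHom [Module.Projective R H] {BL : Type*} [CommRing BL] [Algebra R BL]
    {πL : BL} {eL nL : ℕ} {BE : Type*} [CommRing BE] [Algebra R BE] {πE : BE} {eE : ℕ}
    (hL : PRing BL p πL eL) (hE : PRing BE p πE eE) (hH : Killed R H p)
    (hnL : eL < nL * (p - 1)) {M : ℕ} (hM : p * eE < M * (p - 1))
    (θ : BL →ₐ[R] BE ⧸ Ideal.span {πE ^ M})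
    (hθ : ∀ (b : BL) (c : BE), θ b = Ideal.Quotient.mk _ c → c ∈ Ideal.span {πE ^ (M - eE)} →
      b ∈ Ideal.span {πL ^ nL})
    [Finite (H →ₐ[R] BE)] :
    Nat.card (H →ₐ[R] BL) ≤ Nat.card (H →ₐ[R] BE) :=
  LemmaA.card_le_of_algHom hL.prime.pos hH hL.nzd (pthRoot_conv hL) hnL hE.nzd (pthRoot_conv hE)
    (pthRoot_conv hE) hM θ hθ

end Final

/-! ### Hopf orders -/

section Order

variable {ℓ : ℕ} [Fact ℓ.Prime] {M : Type} [AddCommGroup M] [Finite M] {act : GQ → M → M}
  {Hs : Subalgebra (ratLocalizedAt ℓ) (M → Qb)} (hact : IsGalAction act) (h : IsHopfOrder ℓ act Hs)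

/-- the convolution of two evaluations is the evaluation at the sum -/
theorem ev_mul_ev (y y' : M) :
    letI := orderHopfAlgebra hact h
    (toConv (ev Hs y) * toConv (ev Hs y') : WithConv (Hs →ₐ[ratLocalizedAt ℓ] Qb))
      = toConv (ev Hs (y + y')) := by
  letI := orderHopfAlgebra hact h
  apply WithConv.ofConv_injective
  refine AlgHom.ext fun φ => ?_
  have h1 := AlgHom.convMul_apply (toConv (ev Hs y)) (toConv (ev Hs y')) φ
  refine h1.trans ?_
  have e1 : (Coalgebra.comul (R := ratLocalizedAt ℓ) φ) = comulHom hact h φ := rfl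
  rw [e1]
  exact ev₂_comulHom hact h φ y y'

/-- the convolution unit is the evaluation at `0` -/
theorem ev_zero_eq_one :
    letI := orderHopfAlgebra hact h
    (toConv (ev Hs 0) : WithConv (Hs →ₐ[ratLocalizedAt ℓ] Qb)) = 1 := by
  letI := orderHopfAlgebra hact h
  apply WithConv.ofConv_injective
  refine AlgHom.ext fun φ => ?_
  show (φ : M → Qb) 0 = algebraMap (ratLocalizedAt ℓ) Qb (Coalgebra.counit (R := ratLocalizedAt ℓ) φ)
  have e1 : (Coalgebra.counit (R := ratLocalizedAt ℓ) φ) = counitHom hact h φ := rfl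
  rw [e1, algebraMap_counitHom]

/-- the `n`-th convolution power of the identity of a Hopf order is `φ ↦ φ (n • ·)` -/
theorem ev_comp_id_pow (n : ℕ) (y : M) :
    letI := orderHopfAlgebra hact h
    (ev Hs y).comp ((toConv (AlgHom.id (ratLocalizedAt ℓ) Hs) :
      WithConv (Hs →ₐ[ratLocalizedAt ℓ] Hs)) ^ n).ofConv = ev Hs (n • y) := by
  letI := orderHopfAlgebra hact h
  haveI := orderHopfAlgebra_isCocomm hact h
  have h1 := comp_convPow (ev Hs y) (toConv (AlgHom.id (ratLocalizedAt ℓ) Hs)) n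
  have h2 : ∀ n : ℕ, (toConv (ev Hs y) : WithConv (Hs →ₐ[ratLocalizedAt ℓ] Qb)) ^ n
      = toConv (ev Hs (n • y)) := by
    intro n
    induction n with
    | zero => rw [pow_zero, zero_smul, ev_zero_eq_one hact h]
    | succ n ih => rw [pow_succ, ih, ev_mul_ev hact h, succ_nsmul]
  have h3 : toConv ((ev Hs y).comp (toConv (AlgHom.id (ratLocalizedAt ℓ) Hs)).ofConv)
      = (toConv (ev Hs y) : WithConv (Hs →ₐ[ratLocalizedAt ℓ] Qb)) := rfl
  rw [h3, h2] at h1
  exact WithConv.toConv_injective h1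

/-- **A Hopf order on a group killed by `p` is killed by `p`.** -/
theorem killed_order {p : ℕ} (hp : ∀ y : M, p • y = 0) :
    letI := orderHopfAlgebra hact h
    Killed (ratLocalizedAt ℓ) Hs p := by
  letI := orderHopfAlgebra hact h
  unfold Killed
  apply WithConv.ofConv_injective
  refine AlgHom.ext fun φ => ?_
  apply ev_injective
  intro y
  have h1 := congrArg (fun F : Hs →ₐ[ratLocalizedAt ℓ] Qb => F φ) (ev_comp_id_pow hact h p y)
  simp only [AlgHom.comp_apply] at h1
  rw [h1, hp y]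
  have h2 := congrArg (fun F : WithConv (Hs →ₐ[ratLocalizedAt ℓ] Qb) => F.ofConv φ)
    (ev_zero_eq_one hact h)
  simp only at h2
  rw [show ev Hs 0 φ = (toConv (ev Hs 0)).ofConv φ from rfl, h2]
  rfl

end Order

end Fermat.Agent.S56.Flat.LemmaAInst
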