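/-
S56, block F (FLAT), leaf [FL-EF] part 1 = the output of [FL-A] in the vocabulary of
`KummerBound/Defs.lean` (helper6).

`M` is a finite abelian group with an action `act` of `G_ℚ`, killed by `p`, and
`Hs ⊂ Map(M, ℚ̄)` is a Hopf order (S19 `Abs.IsHopfOrder`; by S19 `Base/OfModel` this is what
`GaloisRepAdic.IsFlatAt` provides at every finite level).  Let `ι = padicEmbedding p : ℚ̄ → ℚ̄_p`
and `L = pointsField p Hs := ℚ_p(ι (φ y) : φ ∈ Hs, y ∈ M) ⊂ PadicAlgCl p`, the field of definition
of the points of `Hs` over `ℚ̄_p`.  Then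

* `finiteDimensional_pointsField`, `isGalois_pointsField` : `L/ℚ_p` is finite Galois;
* `forall_eq_iff_act` : `τ ∈ Gal(ℚ̄_p/ℚ_p)` fixes `L` iff `localGaloisToGlobal p τ` acts trivially
  on `M`;
* `fontaineProp_pointsField` : **Fontaine's property** `KummerBound.FontaineProp p L`
  (`(P_m)` for all `m > p/(p-1)`), from Lemma A (`LemmaAInst.card_le_of_algHom`);
* `exists_of_isFlatAt` : the same for a level `V/IV` killed by `p` of an `IsFlatAt` representation.

Proof of `FontaineProp`: `|M| ≤ #Hs(𝒪_L) ≤ #Hs(𝒪_E) ≤ #Hs(ℚ̄_p) = |M|`; the last equality because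
every `ℤ_(p)`-point of `Hs` in `ℚ̄_p` is integral, hence algebraic over `ℚ`, hence factors through
`ι`, hence is an evaluation (S19 `Base.exists_eq_eval`).  So all points are defined over `E`.
-/
import Mathlib
import Fermat.Agent.S56.Flat.LemmaAInst
import Fermat.Agent.S56.Flat.KummerBound.Defs
import Fermat.Agent.S19.Abs.FlatAt
import Fermat.Agent.S19.Base.OfModel
import Fermat.Agent.S19.Base.Points
import Fermat.Prelude.Def_GaloisRep_CompletionBridge

set_option autoImplicit false
set_option linter.style.haveILetI false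
set_option linter.unusedSectionVars false

open GaloisRep Fermat.Agent.S19.Abs IsLocalRing

namespace Fermat.Agent.S56.Flat.PointsField

/-! ### ring homomorphisms out of `ℤ_(p)` -/

section RatLoc

variable {p : ℕ}

/-- every element of `ℤ_(p)` is an integer divided by a natural number which is a unit of
`ℤ_(p)` -/
theorem exists_den_mul_eq (r : ratLocalizedAt p) :
    ∃ (d : ℕ) (n : ℤ), IsUnit ((d : ℕ) : ratLocalizedAt p) ∧
      ((d : ℕ) : ratLocalizedAt p) * r = ((n : ℤ) : ratLocalizedAt p) := by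
  refine ⟨(r : ℚ).den, (r : ℚ).num, ?_, ?_⟩
  · have hmem : ((r : ℚ).den : ℚ)⁻¹ ∈ ratLocalizedAt p := by
      show (((r : ℚ).den : ℚ)⁻¹).den.Coprime p
      rw [Rat.inv_natCast_den]
      rw [if_neg (r : ℚ).den_nz]
      exact r.2
    refine IsUnit.of_mul_eq_one (⟨_, hmem⟩ : ratLocalizedAt p) ?_
    apply Subtype.ext
    push_cast
    exact mul_inv_cancel₀ (Nat.cast_ne_zero.mpr (r : ℚ).den_nz)
  · apply Subtype.ext
    push_cast
    rw [mul_comm]
    exact Rat.mul_den_eq_num (r : ℚ)

/-- two ring homomorphisms out of `ℤ_(p)` are equal -/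
theorem ringHom_ratLoc_ext {T : Type*} [CommRing T] (f g : ratLocalizedAt p →+* T) : f = g := by
  ext r
  obtain ⟨d, n, hd, hdn⟩ := exists_den_mul_eq r
  have hf : f ((d : ℕ) : ratLocalizedAt p) * f r = ((n : ℤ) : T) := by
    rw [← map_mul, hdn, map_intCast]
  have hg : g ((d : ℕ) : ratLocalizedAt p) * g r = ((n : ℤ) : T) := by
    rw [← map_mul, hdn, map_intCast]
  have hu : IsUnit (f ((d : ℕ) : ratLocalizedAt p)) := hd.map f
  rw [map_natCast] at hf hg hu
  exact hu.mul_left_cancel (hf.trans hg.symm)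

theorem ringHom_ratLoc_apply {T : Type*} [CommRing T] (f g : ratLocalizedAt p →+* T)
    (r : ratLocalizedAt p) : f r = g r := by
  rw [ringHom_ratLoc_ext f g]

end RatLoc

/-! ### the valuation hypothesis of `LemmaAInst.card_le_of_algHom` for discrete valuation rings -/

section DVR

variable {BL BE : Type*} [CommRing BL] [IsDomain BL] [IsDiscreteValuationRing BL]
  [CommRing BE] [IsDomain BE] [IsDiscreteValuationRing BE]

omit [IsDomain BE] [IsDiscreteValuationRing BE] in
theorem span_pow_ne_top {πE : BE} (hπE : Irreducible πE) {M : ℕ} (hM : 0 < M) :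
    Ideal.span {πE ^ M} ≠ ⊤ := by
  intro h
  rw [Ideal.span_singleton_eq_top] at h
  exact hπE.not_isUnit ((isUnit_pow_iff hM.ne').mp h)

/-- a lift of a unit of `BE ⧸ (πE^M)` is a unit -/
theorem isUnit_of_isUnit_mk {πE : BE} (hπE : Irreducible πE) {M : ℕ} (hM : 0 < M) (w : BE)
    (hw : IsUnit (Ideal.Quotient.mk (Ideal.span {πE ^ M}) w)) : IsUnit w := by
  have : Nontrivial (BE ⧸ Ideal.span {πE ^ M}) :=
    Ideal.Quotient.nontrivial_iff.mpr (span_pow_ne_top hπE hM)
  have := IsLocalHom.of_surjective (Ideal.Quotient.mk (Ideal.span {πE ^ M}))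
    Ideal.Quotient.mk_surjective
  exact IsLocalHom.map_nonunit w hw

/-- **the valuation hypothesis of Lemma A, Cor.**  `BL`, `BE` discrete valuation rings with
`p ~ πL^eL`, `p ~ πE^eE`, `θ : BL → BE/(πE^M)` a ring homomorphism with `p eE < M (p-1)`.  If
`θ b` is the class of an element of `(πE^(M-eE))` then `b ∈ (πL^n)`, `n = ⌊eL/(p-1)⌋ + 1` the
least integer with `eL < n (p-1)`.  (`θ πL` has valuation `eE/eL`.) -/
theorem mem_span_pow_of_map_mem {p : ℕ} {πL : BL} {πE : BE} {eL eE M : ℕ}
    (hπL : Irreducible πL) (hπE : Irreducible πE) (heL : 0 < eL)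
    (hpL : ∃ u : BL, IsUnit u ∧ (p : BL) = πL ^ eL * u)
    (hpE : ∃ u : BE, IsUnit u ∧ (p : BE) = πE ^ eE * u)
    (hM : p * eE < M * (p - 1))
    (θ : BL →+* BE ⧸ Ideal.span {πE ^ M})
    (b : BL) (c : BE) (hbc : θ b = Ideal.Quotient.mk _ c)
    (hc : c ∈ Ideal.span {πE ^ (M - eE)}) :
    b ∈ Ideal.span {πL ^ (eL / (p - 1) + 1)} := by
  classical
  obtain ⟨uL, huL, hpL⟩ := hpL
  obtain ⟨uE, huE, hpE⟩ := hpE
  have hq : 0 < p - 1 := by
    rcases Nat.eq_zero_or_pos (p - 1) with h | h
    · rw [h, Nat.mul_zero] at hM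
      exact absurd hM (Nat.not_lt_zero _)
    · exact h
  have heM : eE < M := by
    by_contra hcon
    push Not at hcon
    have h1 : M * (p - 1) ≤ eE * (p - 1) := Nat.mul_le_mul_right _ hcon
    have h2 : eE * (p - 1) ≤ p * eE := by
      rw [Nat.mul_comm]
      exact Nat.mul_le_mul_right _ (Nat.sub_le _ _)
    omega
  have hM0 : 0 < M := by omega
  set mk := Ideal.Quotient.mk (Ideal.span {πE ^ M}) with hmk
  -- lifts of images of units are units
  have hunit : ∀ u : BL, IsUnit u → ∃ w : BE, IsUnit w ∧ θ u = mk w := by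
    intro u hu
    obtain ⟨w, hw⟩ := Ideal.Quotient.mk_surjective (θ u)
    refine ⟨w, isUnit_of_isUnit_mk hπE hM0 w ?_, hw.symm⟩
    rw [hw]
    exact hu.map θ
  -- the image of the uniformiser
  obtain ⟨c₀, hc₀⟩ := Ideal.Quotient.mk_surjective (θ πL)
  obtain ⟨w, hw, hθw⟩ := hunit uL huL
  have h1 : mk (c₀ ^ eL * w) = mk (πE ^ eE * uE) := by
    rw [map_mul, map_pow, hc₀, ← hθw, ← map_pow, ← map_mul, ← hpL, map_natCast, ← hpE,
      map_natCast]
  rw [Ideal.Quotient.eq, Ideal.mem_span_singleton] at h1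
  obtain ⟨z, hz⟩ := h1
  have hsplit : πE ^ M = πE ^ eE * πE ^ (M - eE) := by
    rw [← pow_add]
    congr 1
    omega
  have h2 : c₀ ^ eL * w = πE ^ eE * (uE + πE ^ (M - eE) * z) := by
    have : c₀ ^ eL * w = πE ^ eE * uE + πE ^ M * z := by rw [← hz]; ring
    rw [this, hsplit]
    ring
  have hunit' : IsUnit (uE + πE ^ (M - eE) * z) := by
    have hmem : πE ^ (M - eE) * z ∈ maximalIdeal BE := by
      rw [hπE.maximalIdeal_eq, Ideal.mem_span_singleton]
      exact Dvd.dvd.mul_right (dvd_pow_self _ (by omega)) _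
    by_contra hnu
    have h3 : uE + πE ^ (M - eE) * z ∈ maximalIdeal BE := (mem_maximalIdeal _).mpr hnu
    have h4 : uE ∈ maximalIdeal BE := by
      have := (maximalIdeal BE).sub_mem h3 hmem
      simpa using this
    exact (mem_maximalIdeal _).mp h4 huE
  have hc₀0 : c₀ ≠ 0 := by
    rintro rfl
    rw [zero_pow heL.ne', zero_mul] at h2
    have := h2.symm
    rw [mul_eq_zero] at this
    rcases this with h | h
    · exact hπE.ne_zero (pow_eq_zero_iff (n := eE) (M₀ := BE) (by
        rintro rfl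
        simp at h) |>.mp h)
    · exact hunit'.ne_zero h
  obtain ⟨t, u₀, hu₀⟩ := IsDiscreteValuationRing.eq_unit_mul_pow_irreducible hc₀0 hπE
  have hteL : t * eL = eE := by
    have h3 : ((u₀ ^ eL * hw.unit : BEˣ) : BE) * πE ^ (t * eL) =
        ((hunit'.unit : BEˣ) : BE) * πE ^ eE := by
      rw [Units.val_mul, Units.val_pow_eq_pow_val, IsUnit.unit_spec, IsUnit.unit_spec, pow_mul,
        mul_comm _ (πE ^ eE), ← h2, hu₀]
      ring
    exact IsDiscreteValuationRing.unit_mul_pow_congr_pow hπE hπE _ _ _ _ h3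
  -- now `b`
  by_cases hb0 : b = 0
  · rw [hb0]
    exact Ideal.zero_mem _
  obtain ⟨j, ub, hub⟩ := IsDiscreteValuationRing.eq_unit_mul_pow_irreducible hb0 hπL
  by_cases hj : eL / (p - 1) + 1 ≤ j
  · rw [Ideal.mem_span_singleton, hub]
    exact Dvd.dvd.mul_left (pow_dvd_pow _ hj) _
  exfalso
  have hjq : j * (p - 1) ≤ eL := by
    have : j ≤ eL / (p - 1) := by omega
    exact (Nat.le_div_iff_mul_le hq).mp this
  obtain ⟨wb, hwb, hθwb⟩ := hunit ub ub.isUnit
  have h5 : mk (wb * (u₀ * πE ^ t) ^ j) = mk c := by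
    rw [← hu₀, map_mul, map_pow, hc₀, ← hθwb, ← map_pow, ← map_mul, ← hub, hbc]
  rw [Ideal.Quotient.eq, Ideal.mem_span_singleton] at h5
  have h6 : πE ^ (M - eE) ∣ wb * (u₀ * πE ^ t) ^ j - c := by
    refine dvd_trans ?_ h5
    exact pow_dvd_pow _ (Nat.sub_le _ _)
  rw [Ideal.mem_span_singleton] at hc
  have h7 : πE ^ (M - eE) ∣ wb * (u₀ * πE ^ t) ^ j := by
    have := dvd_add h6 hc
    simpa using this
  have h8 : πE ^ (M - eE) ∣ πE ^ (t * j) := by
    have h9 : wb * ((u₀ : BE) * πE ^ t) ^ j = (wb * (u₀ : BE) ^ j) * πE ^ (t * j) := by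
      rw [mul_pow, pow_mul]
      ring
    rw [h9] at h7
    have hu : IsUnit (wb * (u₀ : BE) ^ j) := hwb.mul (u₀.isUnit.pow j)
    exact (hu.dvd_mul_left).mp h7
  have h10 : M - eE ≤ t * j := (pow_dvd_pow_iff hπE.ne_zero hπE.not_isUnit).mp h8
  -- arithmetic
  obtain ⟨D, rfl⟩ : ∃ D, M = D + eE := ⟨M - eE, by omega⟩
  obtain ⟨q, rfl⟩ : ∃ q, p = q + 1 := ⟨p - 1, by omega⟩
  simp only [Nat.add_sub_cancel] at h10 hjq hM hq
  have e1 : D * q ≤ t * j * q := Nat.mul_le_mul_right _ h10
  have e2 : t * (j * q) ≤ t * eL := Nat.mul_le_mul_left _ hjq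
  have e3 : (q + 1) * eE = q * eE + eE := by ring
  have e4 : (D + eE) * q = D * q + q * eE := by ring
  have e5 : t * j * q = t * (j * q) := by ring
  omega

/-- the bundled hypotheses `LemmaAInst.PRing` for a complete discrete valuation ring -/
theorem pRing_of_dvr {p : ℕ} (hp : p.Prime) {πE : BE} (hπE : Irreducible πE) {eE : ℕ}
    (hpE : Ideal.span {((p : ℕ) : BE)} = maximalIdeal BE ^ eE)
    [IsAdicComplete (maximalIdeal BE) BE] : LemmaAInst.PRing BE p πE eE where
  prime := hp
  nzd := mem_nonZeroDivisors_of_ne_zero hπE.ne_zero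
  assoc := by
    rw [hπE.maximalIdeal_eq, Ideal.span_singleton_pow, Ideal.span_singleton_eq_span_singleton] at hpE
    obtain ⟨u, hu⟩ := hpE.symm
    exact ⟨u, u.isUnit, hu.symm⟩
  complete := by
    rw [← hπE.maximalIdeal_eq]
    infer_instance

end DVR

/-! ### `ℤ_(p)`-algebra structures -/

section Alg

variable (p : ℕ) [Fact p.Prime]

/-- `ℤ_(p) → ℤ_p` -/
noncomputable def toZp : ratLocalizedAt p →+* ℤ_[p] :=
  RingHom.codRestrict ((Rat.castHom ℚ_[p]).comp (ratLocalizedAt p).subtype) (PadicInt.subring p)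
    (fun r => by
      show ‖(((r : ℚ) : ℚ_[p]))‖ ≤ 1
      refine Padic.norm_rat_le_one ?_
      have h : (r : ℚ).den.Coprime p := r.2
      exact (Nat.Prime.coprime_iff_not_dvd (Fact.out : p.Prime)).mp h.symm)

/-- the `ℤ_(p)`-algebra structure of `ℤ_p` -/
noncomputable abbrev algZp : Algebra (ratLocalizedAt p) ℤ_[p] := (toZp p).toAlgebra

attribute [local instance] algZp

theorem isScalarTower_ratLoc_Zp : IsScalarTower (ratLocalizedAt p) ℤ_[p] (PadicAlgCl p) :=
  IsScalarTower.of_algebraMap_eq' (ringHom_ratLoc_ext _ _)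

variable (E : IntermediateField ℚ_[p] (PadicAlgCl p))

/-- the `ℤ_(p)`-algebra structure of the ring of integers of `E` -/
noncomputable abbrev algInt : Algebra (ratLocalizedAt p) (integralClosure ℤ_[p] E) :=
  ((algebraMap ℤ_[p] (integralClosure ℤ_[p] E)).comp (toZp p)).toAlgebra

attribute [local instance] algInt

/-- the inclusion of the ring of integers of `E` in `PadicAlgCl p` -/
noncomputable def coeHom : integralClosure ℤ_[p] E →ₐ[ratLocalizedAt p] PadicAlgCl p :=
  { (algebraMap E (PadicAlgCl p)).comp (algebraMap (integralClosure ℤ_[p] E) E) with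
    commutes' := fun r => ringHom_ratLoc_apply
      (((algebraMap E (PadicAlgCl p)).comp (algebraMap (integralClosure ℤ_[p] E) E)).comp
        (algebraMap (ratLocalizedAt p) (integralClosure ℤ_[p] E)))
      (algebraMap (ratLocalizedAt p) (PadicAlgCl p)) r }

@[simp] theorem coeHom_apply (b : integralClosure ℤ_[p] E) :
    coeHom p E b = ((b : E) : PadicAlgCl p) := rfl

theorem coeHom_injective : Function.Injective (coeHom p E) := by
  intro a b hab
  rw [coeHom_apply, coeHom_apply] at hab
  exact Subtype.ext (Subtype.ext hab)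

/-- `ι = padicEmbedding p` as a `ℤ_(p)`-algebra homomorphism -/
noncomputable def embR : Qb →ₐ[ratLocalizedAt p] PadicAlgCl p :=
  { (padicEmbedding p).toRingHom with
    commutes' := fun r => ringHom_ratLoc_apply
      ((padicEmbedding p).toRingHom.comp (algebraMap (ratLocalizedAt p) Qb))
      (algebraMap (ratLocalizedAt p) (PadicAlgCl p)) r }

@[simp] theorem embR_apply (x : Qb) : embR p x = padicEmbedding p x := rfl

theorem embR_injective : Function.Injective (embR p) := (padicEmbedding p).toRingHom.injective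

end Alg

/-! ### points of a Hopf order over `ℚ̄_p` -/

section Points

variable {p : ℕ} [Fact p.Prime] {M : Type} [AddCommGroup M] {act : GQ → M → M}
  {Hs : Subalgebra (ratLocalizedAt p) (M → Qb)}

attribute [local instance] algZp algInt

/-- the point of `Hs` over `ℚ̄_p` attached to `y : M` -/
noncomputable def ptAlg (Hs : Subalgebra (ratLocalizedAt p) (M → Qb)) (y : M) :
    Hs →ₐ[ratLocalizedAt p] PadicAlgCl p :=
  (embR p).comp (ev Hs y)

@[simp] theorem ptAlg_apply (y : M) (φ : Hs) :
    ptAlg Hs y φ = padicEmbedding p ((φ : M → Qb) y) := rfl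

theorem ptAlg_injective (h : IsHopfOrder p act Hs) : Function.Injective (ptAlg Hs) := by
  intro y y' hyy
  apply h.ev_inj
  refine AlgHom.ext fun φ => ?_
  apply embR_injective p
  exact DFunLike.congr_fun hyy φ

/-- the values of a point are integral over `ℤ_p` -/
theorem isIntegral_apply (h : IsHopfOrder p act Hs) (g : Hs →ₐ[ratLocalizedAt p] PadicAlgCl p)
    (φ : Hs) : IsIntegral ℤ_[p] (g φ) := by
  haveI := h.moduleFinite
  haveI := isScalarTower_ratLoc_Zp p
  have h1 : IsIntegral (ratLocalizedAt p) φ := Algebra.IsIntegral.isIntegral φ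
  exact (h1.map g).tower_top

/-- **every point of `Hs` over `ℚ̄_p` comes from a point of `M`.** -/
theorem exists_eq_ptAlg [Finite M] (hact : IsGalAction act) (h : IsHopfOrder p act Hs)
    (g : Hs →ₐ[ratLocalizedAt p] PadicAlgCl p) : ∃ y : M, g = ptAlg Hs y := by
  classical
  haveI := h.moduleFinite
  -- the values of `g` are in the range of `ι`
  have hmem : ∀ φ : Hs, g φ ∈ (padicEmbedding p).toRingHom.range := by
    intro φ
    obtain ⟨P, hPm, hP⟩ : IsIntegral (ratLocalizedAt p) φ := Algebra.IsIntegral.isIntegral φ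
    have hP' : Polynomial.aeval φ P = 0 := hP
    have hsplit : (P.map (algebraMap (ratLocalizedAt p) Qb)).Splits := IsAlgClosed.splits _
    have hne : P.map (algebraMap (ratLocalizedAt p) Qb) ≠ 0 := (hPm.map _).ne_zero
    refine hsplit.mem_range_of_isRoot hne (i := (padicEmbedding p).toRingHom) (x := g φ) ?_
    rw [Polynomial.IsRoot.def, Polynomial.map_map,
      ringHom_ratLoc_ext ((padicEmbedding p).toRingHom.comp (algebraMap (ratLocalizedAt p) Qb))
        (algebraMap (ratLocalizedAt p) (PadicAlgCl p)),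
      Polynomial.eval_map_algebraMap, Polynomial.aeval_algHom_apply, hP', map_zero]
  choose g' hg' using hmem
  have hinj : Function.Injective (padicEmbedding p).toRingHom :=
    (padicEmbedding p).toRingHom.injective
  let χ : Hs →ₐ[ratLocalizedAt p] Qb :=
    { toFun := g'
      map_one' := hinj (by rw [hg', map_one, map_one])
      map_mul' := fun a b => hinj (by rw [hg', map_mul, map_mul, hg', hg'])
      map_zero' := hinj (by rw [hg', map_zero, map_zero])
      map_add' := fun a b => hinj (by rw [hg', map_add, map_add, hg', hg'])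
      commutes' := fun r => hinj (by
        rw [hg', g.commutes]
        exact ((embR p).commutes r).symm) }
  obtain ⟨y, hy⟩ := Fermat.Agent.S19.Base.exists_eq_eval p hact h χ
  refine ⟨y, AlgHom.ext fun φ => ?_⟩
  rw [ptAlg_apply, ← hy φ]
  exact (hg' φ).symm

end Points

/-! ### the field of definition of the points -/

section Field

variable (p : ℕ) [Fact p.Prime] {M : Type} [AddCommGroup M] {act : GQ → M → M}
  (Hs : Subalgebra (ratLocalizedAt p) (M → Qb))

/-- the values `ι (φ y)`, `φ ∈ Hs`, `y ∈ M` -/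
def valueSet : Set (PadicAlgCl p) := {z | ∃ φ ∈ Hs, ∃ y : M, padicEmbedding p (φ y) = z}

/-- **the field `ℚ_p(M) ⊂ PadicAlgCl p` of definition of the points of `Hs` over `ℚ̄_p`** -/
noncomputable def pointsField : IntermediateField ℚ_[p] (PadicAlgCl p) :=
  IntermediateField.adjoin ℚ_[p] (valueSet p Hs)

variable {p} {Hs}

theorem embed_mem_pointsField {φ : M → Qb} (hφ : φ ∈ Hs) (y : M) :
    padicEmbedding p (φ y) ∈ pointsField p Hs :=
  IntermediateField.subset_adjoin _ _ ⟨φ, hφ, y, rfl⟩

theorem ptAlg_mem_pointsField (y : M) (φ : Hs) : ptAlg Hs y φ ∈ pointsField p Hs :=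
  embed_mem_pointsField φ.2 y

theorem pointsField_le_iff {E : IntermediateField ℚ_[p] (PadicAlgCl p)} :
    pointsField p Hs ≤ E ↔ ∀ (y : M) (φ : Hs), ptAlg Hs y φ ∈ E := by
  rw [pointsField, IntermediateField.adjoin_le_iff]
  constructor
  · intro h y φ
    exact h ⟨φ, φ.2, y, rfl⟩
  · rintro h z ⟨φ, hφ, y, rfl⟩
    exact h y ⟨φ, hφ⟩

theorem algebraMap_ratLoc_mem (E : IntermediateField ℚ_[p] (PadicAlgCl p))
    (r : ratLocalizedAt p) : algebraMap (ratLocalizedAt p) (PadicAlgCl p) r ∈ E := by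
  have h1 : algebraMap (ratLocalizedAt p) (PadicAlgCl p) r =
      algebraMap ℚ_[p] (PadicAlgCl p) (algebraMap (ratLocalizedAt p) ℚ_[p] r) :=
    ringHom_ratLoc_apply (algebraMap (ratLocalizedAt p) (PadicAlgCl p))
      ((algebraMap ℚ_[p] (PadicAlgCl p)).comp (algebraMap (ratLocalizedAt p) ℚ_[p])) r
  rw [h1]
  exact E.algebraMap_mem _

/-- `ℚ_p(M)` is finite over `ℚ_p` -/
theorem finiteDimensional_pointsField [Finite M] (h : IsHopfOrder p act Hs) :
    FiniteDimensional ℚ_[p] (pointsField p Hs) := by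
  classical
  obtain ⟨S₀, hS₀⟩ := h.fg
  let T₀ : Set (PadicAlgCl p) :=
    (fun q : (M → Qb) × M => padicEmbedding p (q.1 q.2)) '' ((S₀ : Set (M → Qb)) ×ˢ Set.univ)
  have hfin : T₀.Finite := (S₀.finite_toSet.prod Set.finite_univ).image _
  have key : ∀ φ ∈ Submodule.span (ratLocalizedAt p) (S₀ : Set (M → Qb)), ∀ y : M,
      padicEmbedding p (φ y) ∈ IntermediateField.adjoin ℚ_[p] T₀ := by
    intro φ hφ
    induction hφ using Submodule.span_induction with
    | mem φ hφ =>
      intro y
      exact IntermediateField.subset_adjoin _ _ ⟨(φ, y), ⟨hφ, Set.mem_univ _⟩, rfl⟩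
    | zero =>
      intro y
      rw [Pi.zero_apply, map_zero]
      exact zero_mem _
    | add φ ψ _ _ hφ hψ =>
      intro y
      rw [Pi.add_apply, map_add]
      exact add_mem (hφ y) (hψ y)
    | smul r φ _ hφ =>
      intro y
      rw [Pi.smul_apply, Algebra.smul_def, map_mul]
      refine mul_mem ?_ (hφ y)
      have := (embR p).commutes r
      rw [embR_apply] at this
      rw [this]
      exact algebraMap_ratLoc_mem _ r
  have hle : pointsField p Hs ≤ IntermediateField.adjoin ℚ_[p] T₀ := by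
    rw [pointsField, IntermediateField.adjoin_le_iff]
    rintro z ⟨φ, hφ, y, rfl⟩
    refine key φ ?_ y
    rw [hS₀]
    exact hφ
  haveI : Finite ↑T₀ := hfin.to_subtype
  haveI : FiniteDimensional ℚ_[p] (IntermediateField.adjoin ℚ_[p] T₀) :=
    IntermediateField.finiteDimensional_adjoin (fun x _ => Algebra.IsIntegral.isIntegral x)
  exact FiniteDimensional.of_injective (IntermediateField.inclusion hle).toLinearMap
    (IntermediateField.inclusion hle).injective

theorem map_valueSet (h : IsHopfOrder p act Hs) (τ : PadicAlgCl p ≃ₐ[ℚ_[p]] PadicAlgCl p) :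
    τ '' valueSet p Hs ⊆ valueSet p Hs := by
  rintro _ ⟨_, ⟨φ, hφ, y, rfl⟩, rfl⟩
  refine ⟨φ, hφ, act (localGaloisToGlobal p τ) y, ?_⟩
  rw [h.equivariant φ hφ, padicEmbedding_localGaloisToGlobal]

/-- `ℚ_p(M)/ℚ_p` is Galois -/
theorem isGalois_pointsField (h : IsHopfOrder p act Hs) : IsGalois ℚ_[p] (pointsField p Hs) := by
  haveI : Normal ℚ_[p] (pointsField p Hs) := by
    rw [IntermediateField.normal_iff_forall_map_le']
    intro τ
    rw [pointsField, IntermediateField.adjoin_map]
    exact IntermediateField.adjoin.mono _ _ _ (map_valueSet h τ)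
  exact ⟨⟩

/-- **`Gal(ℚ̄_p/ℚ_p(M))` is the kernel of the action on `M`.** -/
theorem forall_eq_iff_act (h : IsHopfOrder p act Hs)
    (τ : PadicAlgCl p ≃ₐ[ℚ_[p]] PadicAlgCl p) :
    (∀ x ∈ pointsField p Hs, τ x = x) ↔ ∀ y : M, act (localGaloisToGlobal p τ) y = y := by
  constructor
  · intro hτ y
    by_contra hne
    obtain ⟨φ, hφ, hφy⟩ := h.separates _ _ hne
    apply hφy
    apply (padicEmbedding p).toRingHom.injective
    show padicEmbedding p (φ (act (localGaloisToGlobal p τ) y)) = padicEmbedding p (φ y)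
    rw [h.equivariant φ hφ, padicEmbedding_localGaloisToGlobal]
    exact hτ _ (embed_mem_pointsField hφ y)
  · intro hτ x hx
    induction hx using IntermediateField.adjoin_induction with
    | mem x hx =>
      obtain ⟨φ, hφ, y, rfl⟩ := hx
      rw [← padicEmbedding_localGaloisToGlobal, ← h.equivariant φ hφ, hτ]
    | algebraMap x => exact τ.commutes x
    | add x y _ _ hx hy => rw [map_add, hx, hy]
    | inv x _ hx => rw [map_inv₀, hx]
    | mul x y _ _ hx hy => rw [map_mul, hx, hy]

end Field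

/-! ### Fontaine's property -/

section Main

variable {p : ℕ} [Fact p.Prime] {M : Type} [AddCommGroup M] {act : GQ → M → M}
  {Hs : Subalgebra (ratLocalizedAt p) (M → Qb)}

attribute [local instance] algZp algInt

/-- a point over `ℚ̄_p` with values in `E` is a point over the ring of integers of `E` -/
noncomputable def ptInt (h : IsHopfOrder p act Hs) (E : IntermediateField ℚ_[p] (PadicAlgCl p))
    (g : Hs →ₐ[ratLocalizedAt p] PadicAlgCl p) (hg : ∀ φ, g φ ∈ E) :
    Hs →ₐ[ratLocalizedAt p] integralClosure ℤ_[p] E :=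
  { toRingHom := RingHom.codRestrict (RingHom.codRestrict (g : Hs →+* PadicAlgCl p) E hg)
      (integralClosure ℤ_[p] E) (fun φ => by
        rw [mem_integralClosure_iff,
          ← isIntegral_algebraMap_iff (FaithfulSMul.algebraMap_injective E (PadicAlgCl p))]
        exact isIntegral_apply h g φ)
    commutes' := fun r => coeHom_injective p E (by
      rw [AlgHom.commutes]
      exact g.commutes r) }

theorem coeHom_ptInt (h : IsHopfOrder p act Hs) (E : IntermediateField ℚ_[p] (PadicAlgCl p))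
    (g : Hs →ₐ[ratLocalizedAt p] PadicAlgCl p) (hg : ∀ φ, g φ ∈ E) (φ : Hs) :
    coeHom p E (ptInt h E g hg φ) = g φ := rfl

/-- the points over the ring of integers of `E` inject into `M` -/
theorem exists_point_map [Finite M] (hact : IsGalAction act) (h : IsHopfOrder p act Hs)
    (E : IntermediateField ℚ_[p] (PadicAlgCl p)) :
    ∃ j : (Hs →ₐ[ratLocalizedAt p] integralClosure ℤ_[p] E) → M, Function.Injective j ∧
      ∀ χ, (coeHom p E).comp χ = ptAlg Hs (j χ) := by
  choose j hj using fun χ : Hs →ₐ[ratLocalizedAt p] integralClosure ℤ_[p] E =>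
    exists_eq_ptAlg hact h ((coeHom p E).comp χ)
  refine ⟨j, fun χ χ' hχ => ?_, hj⟩
  have h1 : (coeHom p E).comp χ = (coeHom p E).comp χ' := by rw [hj, hj, hχ]
  refine AlgHom.ext fun φ => coeHom_injective p E ?_
  exact DFunLike.congr_fun h1 φ

theorem natCast_ne_zero_int (E : IntermediateField ℚ_[p] (PadicAlgCl p)) :
    ((p : ℕ) : integralClosure ℤ_[p] E) ≠ 0 := by
  intro h0
  have h1 := congrArg (coeHom p E) h0
  rw [map_natCast, map_zero] at h1
  exact (Fact.out : p.Prime).ne_zero (by exact_mod_cast h1)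

/-- **Fontaine's property for the field of points of a Hopf order killed by `p`.** -/
theorem fontaineProp_pointsField [Finite M] (hact : IsGalAction act) (h : IsHopfOrder p act Hs)
    (hp : ∀ y : M, p • y = 0) : KummerBound.FontaineProp p (pointsField p Hs) := by
  classical
  intro E _ e k he hk ⟨f⟩
  have hpr : p.Prime := Fact.out
  haveI : FiniteDimensional ℚ_[p] (pointsField p Hs) := finiteDimensional_pointsField h
  -- uniformisers
  obtain ⟨πL, hπL⟩ :=
    IsDiscreteValuationRing.exists_irreducible (integralClosure ℤ_[p] (pointsField p Hs))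
  obtain ⟨πE, hπE⟩ := IsDiscreteValuationRing.exists_irreducible (integralClosure ℤ_[p] E)
  -- the ramification index of `L`
  have hpL0 : Ideal.span {((p : ℕ) : integralClosure ℤ_[p] (pointsField p Hs))} ≠ ⊥ := by
    rw [Ne, Ideal.span_singleton_eq_bot]
    exact natCast_ne_zero_int _
  obtain ⟨eL, heL⟩ := IsDiscreteValuationRing.ideal_eq_span_pow_irreducible hpL0 hπL
  have heL' : Ideal.span {((p : ℕ) : integralClosure ℤ_[p] (pointsField p Hs))} =
      maximalIdeal (integralClosure ℤ_[p] (pointsField p Hs)) ^ eL := by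
    rw [heL, hπL.maximalIdeal_eq, Ideal.span_singleton_pow]
  have heL0 : 0 < eL := by
    rcases Nat.eq_zero_or_pos eL with h0 | h0
    · exfalso
      rw [h0, pow_zero, Ideal.one_eq_top, Ideal.span_singleton_eq_top] at heL'
      exact (mem_maximalIdeal _).mp
        (Fermat.Agent.S55.LocalInt.natCast_mem_maximalIdeal (pointsField p Hs)) heL'
    · exact h0
  have hPL := pRing_of_dvr hpr hπL heL'
  have hPE := pRing_of_dvr hpr hπE he
  letI := orderHopfAlgebra hact h
  haveI := orderHopfAlgebra_isCocomm hact h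
  have hK := LemmaAInst.killed_order hact h hp
  haveI := h.moduleFree
  -- the homomorphism `θ`
  have hideal : maximalIdeal (integralClosure ℤ_[p] E) ^ k = Ideal.span {πE ^ k} := by
    rw [hπE.maximalIdeal_eq, Ideal.span_singleton_pow]
  let θ₀ : integralClosure ℤ_[p] (pointsField p Hs) →+*
      integralClosure ℤ_[p] E ⧸ Ideal.span {πE ^ k} :=
    (Ideal.quotEquivOfEq hideal).toRingHom.comp f
  let θ : integralClosure ℤ_[p] (pointsField p Hs) →ₐ[ratLocalizedAt p]
      integralClosure ℤ_[p] E ⧸ Ideal.span {πE ^ k} :=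
    { θ₀ with
      commutes' := fun r => ringHom_ratLoc_apply (θ₀.comp (algebraMap _ _)) (algebraMap _ _) r }
  have hM : p * e < k * (p - 1) := by
    rw [Nat.mul_comm k]
    exact hk
  have hq : 0 < p - 1 := Nat.sub_pos_of_lt hpr.one_lt
  have hnL : eL < (eL / (p - 1) + 1) * (p - 1) := by
    rw [Nat.mul_comm]
    exact Nat.lt_mul_div_succ eL hq
  have hθ : ∀ (b : integralClosure ℤ_[p] (pointsField p Hs)) (c : integralClosure ℤ_[p] E),
      θ b = Ideal.Quotient.mk _ c → c ∈ Ideal.span {πE ^ (k - e)} →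
      b ∈ Ideal.span {πL ^ (eL / (p - 1) + 1)} := fun b c hbc hc =>
    mem_span_pow_of_map_mem hπL hπE heL0 hPL.assoc hPE.assoc hM θ₀ b c hbc hc
  -- the points
  obtain ⟨jE, hjE, hjE'⟩ := exists_point_map hact h E
  obtain ⟨jL, hjL, -⟩ := exists_point_map hact h (pointsField p Hs)
  haveI : Finite (Hs →ₐ[ratLocalizedAt p] integralClosure ℤ_[p] E) := Finite.of_injective jE hjE
  haveI : Finite (Hs →ₐ[ratLocalizedAt p] integralClosure ℤ_[p] (pointsField p Hs)) :=
    Finite.of_injective jL hjL
  have hcard := LemmaAInst.card_le_of_algHom hPL hPE hK hnL hM θ hθ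
  have hML : Nat.card M ≤
      Nat.card (Hs →ₐ[ratLocalizedAt p] integralClosure ℤ_[p] (pointsField p Hs)) := by
    refine Nat.card_le_card_of_injective
      (fun y => ptInt h (pointsField p Hs) (ptAlg Hs y) (ptAlg_mem_pointsField y)) ?_
    intro y y' hyy
    apply ptAlg_injective h
    refine AlgHom.ext fun φ => ?_
    have := congrArg (fun χ => coeHom p (pointsField p Hs) (χ φ)) hyy
    simpa only [coeHom_ptInt] using this
  have hbij : Function.Bijective jE := hjE.bijective_of_nat_card_le (hML.trans hcard)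
  rw [pointsField_le_iff]
  intro y φ
  obtain ⟨χ, rfl⟩ := hbij.2 y
  rw [← hjE' χ]
  exact (χ φ : E).2

end Main

/-! ### flat representations -/

section Flat

variable {p : ℕ} [Fact p.Prime] {A : Type} [CommRing A] [IsLocalRing A]

/-- **`IsFlatAt` gives, at every finite level `V/IV` killed by `p`, a Hopf order whose field of
points `ℚ_p(V/IV)` has Fontaine's property.**  (The other properties of `pointsField p Hs`:
`finiteDimensional_pointsField`, `isGalois_pointsField`, `forall_eq_iff_act`.) -/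
theorem exists_of_isFlatAt (ρ : GaloisRepAdic A) (hflat : ρ.IsFlatAt p) (I : Ideal A)
    [Finite (A ⧸ I)] (hpI : (p : A) ∈ I) :
    ∃ Hs : Subalgebra (ratLocalizedAt p) ((ρ.V ⧸ (I • (⊤ : Submodule A ρ.V))) → Qb),
      IsHopfOrder p (levelAct ρ I) Hs ∧ KummerBound.FontaineProp p (pointsField p Hs) := by
  haveI := finite_level ρ I
  have hmodel : HasHopfModel p (levelAct ρ I) := hflat.2 I inferInstance
  obtain ⟨Hs, hHs⟩ := Fermat.Agent.S19.Base.hasHopfOrder_of_hasHopfModel hmodel
  refine ⟨Hs, hHs, fontaineProp_pointsField (isGalAction_levelAct ρ I) hHs ?_⟩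
  intro y
  induction y using Submodule.Quotient.induction_on with
  | _ v =>
    rw [← Submodule.Quotient.mk_smul, Submodule.Quotient.mk_eq_zero]
    have h1 : p • v = (p : A) • v := by
      rw [Nat.cast_smul_eq_nsmul]
    rw [h1]
    exact Submodule.smul_mem_smul hpI Submodule.mem_top

end Flat

end Fermat.Agent.S56.Flat.PointsField
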