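/-
S56, block F (FLAT), leaf [FL-D], last leaf (helper22): **the count `|V_{I_p}| ≥ |k|²` for a flat
lift to `k[ε]` of a residual representation with a line with unramified quotient**, from helper6's
connected subgroup of a Hopf order (`Etale/Connected`) and his theorem (LocUnr) (`Etale/Unram`,
here a NAMED HYPOTHESIS `LocUnrQuot` / `LocUnrSub` until it lands); then, with the algebraic half
`PThree/OrdLift`, **a flat lift is ordinary and its cocycle is upper triangular up to a
coboundary** (`exists_sub_mem_W1_of_isFlatAt`), and the residual twin: a flat `ρ̄` with a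
`G_p`-stable line on which inertia acts trivially has a line with unramified quotient
(`exists_isSOBasis_of_isFlatAt`).
-/
import Mathlib
import Fermat.Agent.S56.Flat.Etale.Connected
import Fermat.Agent.S56.Flat.PThree.OrdLift
import Fermat.Agent.S56.PT.UnramInstNorm

set_option autoImplicit false
set_option linter.unusedSectionVars false
set_option linter.style.haveILetI false

open GaloisRep Fermat.Agent.S19.Abs Fermat.Agent.S19.Base
open Fermat.Agent.S56.Flat.PointsField Fermat.Agent.S56.Flat.Etale.QuotOrder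
  Fermat.Agent.S56.Flat.Etale.Connected
open IsLocalRing Fermat.Agent.S53 Matrix Fermat.Agent.S56.Tan.Cocycle
  Fermat.Agent.S56.Loc.StrictOrdNormalForm Fermat.Agent.S56.Places.Dict
  Fermat.Agent.S56.Loc.BorelCore Fermat.Agent.S56.Loc.StrictOrdAt ExtCitation
  Fermat.Agent.S56.Flat.PThree.OrdLift

noncomputable section

namespace Fermat.Agent.S56.Flat.PThree

/-! ### helper6's (LocUnr), as named hypotheses -/

/-- **(LocUnr), quotient form** (helper6, `Etale/Unram.lean`): for a Hopf order on a module killed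
by `p ≠ 2` and a `G_p`-stable subgroup `N` with inertia acting trivially on `M/N`, the connected
subgroup is contained in `N`. -/
def LocUnrQuot (p : ℕ) [Fact p.Prime] : Prop :=
  ∀ {M : Type} [AddCommGroup M] [Finite M] {act : S19.Abs.GQ → M → M} (_ : IsGalAction act)
    {Hs : Subalgebra (ratLocalizedAt p) (M → Qb)} (h : IsHopfOrder p act Hs),
    (∀ y : M, p • y = 0) → ∀ N : AddSubgroup M,
    (∀ (τ : PadicAlgCl p ≃ₐ[ℚ_[p]] PadicAlgCl p), ∀ y ∈ N, act (localGaloisToGlobal p τ) y ∈ N) →
    (∀ (τ : PadicAlgCl p ≃ₐ[ℚ_[p]] PadicAlgCl p), IsInertial τ →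
      ∀ y : M, act (localGaloisToGlobal p τ) y - y ∈ N) →
    conn p Hs h ≤ N

/-- **(LocUnr), sub form**: a `G_p`-stable subgroup on which inertia acts trivially meets the
connected subgroup trivially. -/
def LocUnrSub (p : ℕ) [Fact p.Prime] : Prop :=
  ∀ {M : Type} [AddCommGroup M] [Finite M] {act : S19.Abs.GQ → M → M} (_ : IsGalAction act)
    {Hs : Subalgebra (ratLocalizedAt p) (M → Qb)} (h : IsHopfOrder p act Hs),
    (∀ y : M, p • y = 0) → ∀ N : AddSubgroup M,
    (∀ (τ : PadicAlgCl p ≃ₐ[ℚ_[p]] PadicAlgCl p), ∀ y ∈ N, act (localGaloisToGlobal p τ) y ∈ N) →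
    (∀ (τ : PadicAlgCl p ≃ₐ[ℚ_[p]] PadicAlgCl p), IsInertial τ →
      ∀ y ∈ N, act (localGaloisToGlobal p τ) y = y) →
    conn p Hs h ⊓ N = ⊥

section Abstract

variable {p : ℕ} [Fact p.Prime] {M : Type} [AddCommGroup M] [Finite M] {act : S19.Abs.GQ → M → M}
  {Hs : Subalgebra (ratLocalizedAt p) (M → Qb)}

theorem isGalAction_subAct (hact : IsGalAction act) (N : AddSubgroup M)
    (hN : ∀ σ, ∀ y ∈ N, act σ y ∈ N) : IsGalAction (subAct act N hN) where
  one y := Subtype.ext (hact.one y)
  mul σ τ y := Subtype.ext (hact.mul σ τ y)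
  add σ y y' := Subtype.ext (hact.add σ y y')

theorem conn_subOrder_eq (h : IsHopfOrder p act Hs) (N : AddSubgroup M)
    (hN : ∀ σ, ∀ y ∈ N, act σ y ∈ N) :
    conn p (subOrder Hs N) (isHopfOrder_subOrder h N hN) = (conn p Hs h).addSubgroupOf N := by
  ext n
  rw [AddSubgroup.mem_addSubgroupOf, mem_conn, mem_conn]
  exact cong_subOrder_iff N n 0

/-- **the two-step count.**  `ε : M →+ M` commuting with the Galois action, `f : M →+ K` surjective
with `f ∘ ε = 0`, `ker ε ≤ ker f`, `ker f` stable under `G_p` with inertia acting trivially on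
`M / ker f`.  Then `[M : conn] ≥ |K|²`. -/
theorem card_sq_le_index_conn (hLU : LocUnrQuot p) (hact : IsGalAction act)
    (h : IsHopfOrder p act Hs) (hpM : ∀ y : M, p • y = 0)
    {K : Type} [AddCommGroup K] (ε : M →+ M) (f : M →+ K)
    (H1 : ∀ σ y, ε (act σ y) = act σ (ε y))
    (H2 : ∀ y, f (ε y) = 0) (H3 : ∀ y, ε y = 0 → f y = 0) (H4 : Function.Surjective f)
    (H5 : ∀ (τ : PadicAlgCl p ≃ₐ[ℚ_[p]] PadicAlgCl p) y, f y = 0 →
      f (act (localGaloisToGlobal p τ) y) = 0)
    (H6 : ∀ (τ : PadicAlgCl p ≃ₐ[ℚ_[p]] PadicAlgCl p), IsInertial τ →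
      ∀ y : M, f (act (localGaloisToGlobal p τ) y - y) = 0) :
    Nat.card K ^ 2 ≤ (conn p Hs h).index := by
  set C := conn p Hs h with hC
  set T : AddSubgroup M := f.ker with hT
  set N₁ : AddSubgroup M := ε.range with hN₁
  set S : AddSubgroup M := T.map ε with hS
  have hN₁stab : ∀ σ, ∀ y ∈ N₁, act σ y ∈ N₁ := by
    rintro σ _ ⟨y, rfl⟩
    exact ⟨act σ y, H1 σ y⟩
  have hN₁T : N₁ ≤ T := by
    rintro _ ⟨y, rfl⟩
    exact H2 y
  have hSN₁ : S ≤ N₁ := by
    rintro _ ⟨y, -, rfl⟩
    exact ⟨y, rfl⟩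
  -- first use of (LocUnr): `C ≤ T`
  have hCT : C ≤ T := hLU hact h hpM T (fun τ y hy => H5 τ y hy) (fun τ hτ y => H6 τ hτ y)
  -- second use of (LocUnr): `C ∩ N₁ ≤ S`
  have hCS : C.addSubgroupOf N₁ ≤ S.addSubgroupOf N₁ := by
    rw [← conn_subOrder_eq h N₁ hN₁stab]
    refine hLU (isGalAction_subAct hact N₁ hN₁stab) (isHopfOrder_subOrder h N₁ hN₁stab)
      (fun y => Subtype.ext (hpM y)) (S.addSubgroupOf N₁) ?_ ?_
    · rintro τ ⟨_, ⟨y, rfl⟩⟩ hy
      rw [AddSubgroup.mem_addSubgroupOf] at hy ⊢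
      obtain ⟨t, ht, hty⟩ := hy
      refine ⟨act (localGaloisToGlobal p τ) t, H5 τ t ht, ?_⟩
      show ε (act (localGaloisToGlobal p τ) t) = act (localGaloisToGlobal p τ) (ε y)
      rw [H1]
      exact congrArg _ hty
    · rintro τ hτ ⟨_, ⟨y, rfl⟩⟩
      rw [AddSubgroup.mem_addSubgroupOf]
      refine ⟨act (localGaloisToGlobal p τ) y - y, H6 τ hτ y, ?_⟩
      show ε (act (localGaloisToGlobal p τ) y - y) = act (localGaloisToGlobal p τ) (ε y) - ε y
      rw [map_sub, H1]
  -- indices
  have hTidx : T.index = Nat.card K := by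
    rw [hT, AddSubgroup.index_ker, AddMonoidHom.range_eq_top.mpr H4]
    exact Nat.card_congr (AddSubgroup.topEquiv).toEquiv
  have hkerε : ε.ker ≤ T := fun y hy => H3 y hy
  have hSidx : S.relIndex N₁ = T.index := by
    have h1 := AddSubgroup.relIndex_comap (T.map ε) ε ⊤
    rw [AddSubgroup.comap_map_eq, sup_eq_left.mpr hkerε, AddSubgroup.relIndex_top_right,
      ← AddMonoidHom.range_eq_map] at h1
    exact h1.symm
  have h1 : C.relIndex T * T.index = C.index := AddSubgroup.relIndex_mul_index hCT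
  have h2 : C.relIndex N₁ ≤ C.relIndex T := by
    refine AddSubgroup.relIndex_le_of_le_right hN₁T ?_
    exact AddSubgroup.index_ne_zero_of_finite
  have h3 : S.relIndex N₁ ≤ C.relIndex N₁ := by
    have hdvd : (S.addSubgroupOf N₁).index ∣ (C.addSubgroupOf N₁).index :=
      AddSubgroup.index_dvd_of_le hCS
    exact Nat.le_of_dvd (Nat.pos_of_ne_zero AddSubgroup.index_ne_zero_of_finite) hdvd
  rw [← h1, sq, ← hTidx]
  refine Nat.mul_le_mul_right _ ?_
  rw [← hSidx]
  exact h3.trans h2

end Abstract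

/-! ### the reduction map of a model -/

section Reduction

variable {k : Type} [Field k] {ρbar : ResidualGaloisRep k} {ρA : GaloisRepAdic (DualNumber k)}
  (m : Model ρbar ρA) (e : GaloisRepAdic.Equiv ρA (ofMat m.M m.cont))

/-- the coordinates of `ρA.V` given by a model -/
def Eeq : ρA.V ≃ₗ[DualNumber k] (Fin 2 → DualNumber k) := e.toLinearEquiv

theorem Eeq_rho (σ : S53.GQ) (v : ρA.V) : Eeq m e (ρA.ρ σ v) = (m.M σ) *ᵥ (Eeq m e v) :=
  e.map_apply σ v

theorem fstV_zero : fstV (0 : Fin 2 → DualNumber k) = 0 := rfl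

theorem fstV_add (u v : Fin 2 → DualNumber k) : fstV (u + v) = fstV u + fstV v := rfl

/-- the reduction `ρA.V → ρ̄.V` through a model -/
def redV : ρA.V →+ ρbar.V where
  toFun v := (crd ρbar).symm (fstV (Eeq m e v))
  map_zero' := by rw [map_zero, fstV_zero, map_zero]
  map_add' v w := by rw [map_add, fstV_add, map_add]

theorem redV_apply (v : ρA.V) : redV m e v = (crd ρbar).symm (fstV (Eeq m e v)) := rfl

theorem redV_rho (σ : S53.GQ) (v : ρA.V) : redV m e (ρA.ρ σ v) = ρbar.ρ σ (redV m e v) := by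
  rw [redV_apply, Eeq_rho, fstV_mulVec, m.redM_apply, crd_symm_mulVec, toM_symm_resMat, redV_apply]

theorem redV_eps_smul (v : ρA.V) : redV m e ((DualNumber.eps : DualNumber k) • v) = 0 := by
  rw [redV_apply, map_smul, fstV_smul, DualNumber.fst_eps, zero_smul, map_zero]

theorem redV_eq_zero_of_eps_smul {v : ρA.V} (h : (DualNumber.eps : DualNumber k) • v = 0) :
    redV m e v = 0 := by
  have h1 : sndV ((DualNumber.eps : DualNumber k) • Eeq m e v) = 0 := by
    rw [← map_smul, h, map_zero]; rfl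
  rw [sndV_smul, DualNumber.fst_eps, DualNumber.snd_eps, zero_smul, zero_add, one_smul] at h1
  rw [redV_apply, h1, map_zero]

theorem redV_surjective : Function.Surjective (redV m e) := by
  intro w
  refine ⟨(Eeq m e).symm (inlV (crd ρbar w)), ?_⟩
  rw [redV_apply, LinearEquiv.apply_symm_apply, fstV_inlV, LinearEquiv.symm_apply_apply]

end Reduction

/-! ### the dictionary between the frozen inertia group and the norm form -/

section Dict

variable (q : Nat.Primes)

/-- the frozen inertia group at `primeLocalPlace q` is the image of the inertial automorphisms of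
`ℚ̄_q` (norm form) -/
theorem exists_isInertial_of_mem {σ : S53.GQ}
    (hσ : σ ∈ (primeLocalPlace q).inertiaSubgroupIn ℚ) :
    ∃ τ : PadicAlgCl (q : ℕ) ≃ₐ[ℚ_[(q : ℕ)]] PadicAlgCl (q : ℕ),
      IsInertial τ ∧ localGaloisToGlobal (q : ℕ) τ = σ := by
  obtain ⟨τ, rfl⟩ := exists_primeLocalToGlobal_eq q (inertia_le_decomposition _ hσ)
  have h1 : τ ∈ localInertia q := hσ
  rw [Fermat.Agent.S56.PT.UnramInstNorm.localInertia_eq_normInertia] at h1
  exact ⟨τ, h1, rfl⟩

theorem mem_inertia_of_isInertial {τ : PadicAlgCl (q : ℕ) ≃ₐ[ℚ_[(q : ℕ)]] PadicAlgCl (q : ℕ)}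
    (hτ : IsInertial τ) :
    localGaloisToGlobal (q : ℕ) τ ∈ (primeLocalPlace q).inertiaSubgroupIn ℚ := by
  have h1 : τ ∈ (Fermat.Agent.S56.PT.UnramInstNorm.normInertia (q : ℕ) :
      Subgroup (primeLocalGaloisGroup q)) := hτ
  rw [← Fermat.Agent.S56.PT.UnramInstNorm.localInertia_eq_normInertia] at h1
  exact h1

end Dict

/-! ### the count for a flat lift -/

section Lift

theorem card_dualNumber {k : Type} [Field k] [Finite k] :
    Nat.card (DualNumber k) = Nat.card k ^ 2 := by
  have e : DualNumber k ≃ k × k :=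
    ⟨fun y => (TrivSqZeroExt.fst y, TrivSqZeroExt.snd y),
      fun x => TrivSqZeroExt.inl x.1 + TrivSqZeroExt.inr x.2,
      fun y => by ext <;> simp, fun x => by simp⟩
  rw [Nat.card_congr e, Nat.card_prod, sq]

theorem coord_one_eq_zero_iff {k W : Type*} [Field k] [AddCommGroup W] [Module k W]
    (b : Module.Basis (Fin 2) k W) (w : W) :
    b.coord 1 w = 0 ↔ w ∈ Submodule.span k {b 0} := by
  rw [Submodule.mem_span_singleton]
  constructor
  · intro h
    refine ⟨b.coord 0 w, ?_⟩
    conv_rhs => rw [← b.sum_repr w]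
    rw [Fin.sum_univ_two]
    have h1 : b.repr w 1 = 0 := h
    rw [h1, zero_smul, add_zero]
    rfl
  · rintro ⟨a, rfl⟩
    simp

variable {k : Type} [Field k] [Finite k] {ρbar : ResidualGaloisRep k}
  {ρA : GaloisRepAdic (DualNumber k)} (m : Model ρbar ρA) (q : Nat.Primes)

include m in
/-- **[FL-D], the count for a flat lift**: if `ρ̄` has a line with unramified quotient at `q`, the
inertia coinvariants of a flat lift to `k[ε]` have at least `|k|² = |k[ε]|` elements. -/
theorem card_le_card_quot_augSub (hLU : LocUnrQuot (q : ℕ)) (hqk : ((q : ℕ) : k) = 0)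
    (hflat : ρA.IsFlatAt (q : ℕ)) {b : Module.Basis (Fin 2) k ρbar.V} (hb : IsSOBasis ρbar q b) :
    Nat.card (DualNumber k) ≤ Nat.card (ρA.V ⧸ augSub ρA (primeLocalPlace q)) := by
  obtain ⟨e⟩ := m.equiv
  haveI : Finite (DualNumber k) := finite_dualNumber
  haveI : Finite (DualNumber k ⧸ (⊥ : Ideal (DualNumber k))) :=
    Finite.of_surjective _ (Ideal.Quotient.mk_surjective (I := (⊥ : Ideal (DualNumber k))))
  haveI := finite_level ρA (⊥ : Ideal (DualNumber k))
  obtain ⟨Hs, hHs⟩ := hasHopfOrder_of_hasHopfModel (hflat.2 ⊥ inferInstance)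
  have hact := isGalAction_levelAct ρA (⊥ : Ideal (DualNumber k))
  have hpA : ((q : ℕ) : DualNumber k) = 0 := by
    rw [natCast_dualNumber, hqk, TrivSqZeroExt.inl_zero]
  have hpM : ∀ y : ρA.V ⧸ ((⊥ : Ideal (DualNumber k)) • (⊤ : Submodule (DualNumber k) ρA.V)),
      (q : ℕ) • y = 0 := by
    intro y
    rw [← Nat.cast_smul_eq_nsmul (DualNumber k), hpA, zero_smul]
  -- `V ≃ M`
  let q₀ : ρA.V ≃ₗ[DualNumber k]
      (ρA.V ⧸ ((⊥ : Ideal (DualNumber k)) • (⊤ : Submodule (DualNumber k) ρA.V))) :=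
    (Submodule.quotEquivOfEqBot _ (Submodule.bot_smul _)).symm
  have hq₀ : ∀ v : ρA.V, q₀ v = Submodule.Quotient.mk v := fun v => rfl
  have hq₀act : ∀ (σ : S53.GQ) (v : ρA.V),
      levelAct ρA ⊥ σ (q₀ v) = q₀ (ρA.ρ σ v) := fun σ v => rfl
  -- the maps
  let ε : (ρA.V ⧸ ((⊥ : Ideal (DualNumber k)) • (⊤ : Submodule (DualNumber k) ρA.V))) →+
      (ρA.V ⧸ ((⊥ : Ideal (DualNumber k)) • (⊤ : Submodule (DualNumber k) ρA.V))) :=
    (LinearMap.lsmul (DualNumber k) _ (DualNumber.eps : DualNumber k)).toAddMonoidHom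
  have hε : ∀ y, ε y = (DualNumber.eps : DualNumber k) • y := fun y => rfl
  let f : (ρA.V ⧸ ((⊥ : Ideal (DualNumber k)) • (⊤ : Submodule (DualNumber k) ρA.V))) →+ k :=
    ((b.coord 1).toAddMonoidHom.comp (redV m e)).comp q₀.symm.toLinearMap.toAddMonoidHom
  have hf : ∀ v : ρA.V, f (q₀ v) = b.coord 1 (redV m e v) := fun v => by
    show b.coord 1 (redV m e (q₀.symm (q₀ v))) = _
    rw [LinearEquiv.symm_apply_apply]
  have hcount : Nat.card k ^ 2 ≤ (conn (q : ℕ) Hs hHs).index := by
    refine card_sq_le_index_conn hLU hact hHs hpM ε f ?_ ?_ ?_ ?_ ?_ ?_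
    · intro σ y
      rw [hε, hε]
      exact (map_smul (ρA.levelAction ⊥ σ) _ y).symm
    · intro y
      obtain ⟨v, rfl⟩ := q₀.surjective y
      rw [hε, ← map_smul, hf, redV_eps_smul, map_zero]
    · intro y hy
      obtain ⟨v, rfl⟩ := q₀.surjective y
      rw [hε, ← map_smul] at hy
      rw [hf, redV_eq_zero_of_eps_smul m e (q₀.injective (hy.trans (map_zero q₀).symm)), map_zero]
    · intro a
      obtain ⟨v, hv⟩ := redV_surjective m e (a • b 1)
      refine ⟨q₀ v, ?_⟩
      rw [hf, hv]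
      simp
    · intro τ y hy
      obtain ⟨v, rfl⟩ := q₀.surjective y
      rw [hq₀act, hf, redV_rho, coord_one_eq_zero_iff]
      rw [hf, coord_one_eq_zero_iff] at hy
      exact (isUT_iff_forall b).mp (hb.1 τ) _ hy
    · intro τ hτ y
      obtain ⟨v, rfl⟩ := q₀.surjective y
      rw [hq₀act, ← map_sub, hf, map_sub, redV_rho, coord_one_eq_zero_iff]
      exact hb.2 _ (mem_inertia_of_isInertial q hτ) _
  -- from `conn` to `augSub`
  have hle : (augSub ρA (primeLocalPlace q)).toAddSubgroup ≤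
      (conn (q : ℕ) Hs hHs).comap q₀.toLinearMap.toAddMonoidHom := by
    intro x hx
    rw [AddSubgroup.mem_comap]
    show q₀ x ∈ conn (q : ℕ) Hs hHs
    induction hx using Submodule.closure_induction with
    | zero => rw [map_zero]; exact AddSubgroup.zero_mem _
    | add x y _ _ hx hy => rw [map_add]; exact AddSubgroup.add_mem _ hx hy
    | smul_mem r x hx =>
      obtain ⟨σ, hσ, v, rfl⟩ := hx
      obtain ⟨τ, hτ, rfl⟩ := exists_isInertial_of_mem q hσ
      have h1 : r • (ρA.ρ (localGaloisToGlobal (q : ℕ) τ) v - v) =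
          ρA.ρ (localGaloisToGlobal (q : ℕ) τ) (r • v) - r • v := by
        rw [smul_sub, map_smul]
      rw [h1, map_sub, ← hq₀act]
      exact act_sub_mem_conn hHs hτ _
  have hidx : (conn (q : ℕ) Hs hHs).index ≤ (augSub ρA (primeLocalPlace q)).toAddSubgroup.index := by
    have h1 : ((conn (q : ℕ) Hs hHs).comap q₀.toLinearMap.toAddMonoidHom).index =
        (conn (q : ℕ) Hs hHs).index :=
      AddSubgroup.index_comap_of_surjective _ q₀.surjective
    rw [← h1]
    haveI : Finite ρA.V := Finite.of_equiv _ q₀.symm.toEquiv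
    exact Nat.le_of_dvd (Nat.pos_of_ne_zero AddSubgroup.index_ne_zero_of_finite)
      (AddSubgroup.index_dvd_of_le hle)
  rw [card_dualNumber]
  refine (hcount.trans hidx).trans (le_of_eq ?_)
  exact AddSubgroup.index_eq_card _

end Lift

/-! ### the one-step count, sub form -/

section Abstract2

variable {p : ℕ} [Fact p.Prime] {M : Type} [AddCommGroup M] [Finite M] {act : S19.Abs.GQ → M → M}
  {Hs : Subalgebra (ratLocalizedAt p) (M → Qb)}

/-- **the one-step count, sub form**: a `G_p`-stable subgroup with trivial inertia action injects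
into `M / conn`. -/
theorem card_le_index_conn (hLS : LocUnrSub p) (hact : IsGalAction act)
    (h : IsHopfOrder p act Hs) (hpM : ∀ y : M, p • y = 0) (N : AddSubgroup M)
    (hN : ∀ (τ : PadicAlgCl p ≃ₐ[ℚ_[p]] PadicAlgCl p), ∀ y ∈ N,
      act (localGaloisToGlobal p τ) y ∈ N)
    (hI : ∀ (τ : PadicAlgCl p ≃ₐ[ℚ_[p]] PadicAlgCl p), IsInertial τ →
      ∀ y ∈ N, act (localGaloisToGlobal p τ) y = y) :
    Nat.card N ≤ (conn p Hs h).index := by
  have h0 := hLS hact h hpM N hN hI
  have h1 : (conn p Hs h).relIndex N = Nat.card N := by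
    rw [← AddSubgroup.inf_relIndex_right, h0, AddSubgroup.relIndex_bot_left]
  rw [← h1, ← AddSubgroup.relIndex_top_right (conn p Hs h)]
  exact AddSubgroup.relIndex_le_of_le_right le_top
    (by rw [AddSubgroup.relIndex_top_right]; exact AddSubgroup.index_ne_zero_of_finite)

end Abstract2

/-! ### the level `V/εV` -/

section Reduction2

variable {k : Type} [Field k] {ρbar : ResidualGaloisRep k} {ρA : GaloisRepAdic (DualNumber k)}
  (m : Model ρbar ρA) (e : GaloisRepAdic.Equiv ρA (ofMat m.M m.cont))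

theorem redV_smul (a : DualNumber k) (v : ρA.V) :
    redV m e (a • v) = TrivSqZeroExt.fst a • redV m e v := by
  rw [redV_apply, map_smul, fstV_smul, map_smul, redV_apply]

theorem fst_eq_zero_of_mem_span_eps {a : DualNumber k}
    (ha : a ∈ Ideal.span {(DualNumber.eps : DualNumber k)}) : TrivSqZeroExt.fst a = 0 := by
  obtain ⟨c, rfl⟩ := Ideal.mem_span_singleton'.mp ha
  rw [TrivSqZeroExt.fst_mul, DualNumber.fst_eps, mul_zero]

/-- the kernel of the reduction is `ε V` -/
theorem mem_smul_top_of_redV_eq_zero {v : ρA.V} (h : redV m e v = 0) :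
    v ∈ Ideal.span {(DualNumber.eps : DualNumber k)} • (⊤ : Submodule (DualNumber k) ρA.V) := by
  rw [redV_apply, map_eq_zero_iff _ (crd ρbar).symm.injective] at h
  have h1 : Eeq m e v = (DualNumber.eps : DualNumber k) • inlV (sndV (Eeq m e v)) := by
    funext i
    have hi : TrivSqZeroExt.fst (Eeq m e v i) = 0 := congrFun h i
    ext
    · rw [Pi.smul_apply, smul_eq_mul, TrivSqZeroExt.fst_mul, DualNumber.fst_eps, zero_mul, hi]
    · rw [Pi.smul_apply, smul_eq_mul, TrivSqZeroExt.snd_mul, DualNumber.fst_eps,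
        DualNumber.snd_eps, zero_smul, zero_add]
      simp [inlV, sndV]
  have h2 : v = (DualNumber.eps : DualNumber k) • (Eeq m e).symm (inlV (sndV (Eeq m e v))) := by
    apply (Eeq m e).injective
    rw [map_smul, LinearEquiv.apply_symm_apply]
    exact h1
  rw [h2]
  exact Submodule.smul_mem_smul (Ideal.subset_span rfl) Submodule.mem_top

theorem redV_eq_zero_of_mem_smul_top {v : ρA.V}
    (h : v ∈ Ideal.span {(DualNumber.eps : DualNumber k)} •
      (⊤ : Submodule (DualNumber k) ρA.V)) : redV m e v = 0 := by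
  refine Submodule.smul_induction_on h (fun r hr n _ => ?_) (fun x y hx hy => ?_)
  · rw [redV_smul, fst_eq_zero_of_mem_span_eps hr, zero_smul]
  · rw [map_add, hx, hy, add_zero]

/-- the reduction on the level `V/εV` -/
def redMHom : (ρA.V ⧸ (Ideal.span {(DualNumber.eps : DualNumber k)} •
    (⊤ : Submodule (DualNumber k) ρA.V))) →+ ρbar.V :=
  QuotientAddGroup.lift (Ideal.span {(DualNumber.eps : DualNumber k)} •
      (⊤ : Submodule (DualNumber k) ρA.V)).toAddSubgroup (redV m e)
      (fun _ hv => redV_eq_zero_of_mem_smul_top m e hv)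

theorem redMHom_mk (v : ρA.V) : redMHom m e (Submodule.Quotient.mk v) = redV m e v := rfl

theorem redMHom_bijective : Function.Bijective (redMHom m e) := by
  constructor
  · rw [injective_iff_map_eq_zero]
    intro y hy
    induction y using Submodule.Quotient.induction_on with
    | _ v =>
      rw [Submodule.Quotient.mk_eq_zero]
      rw [redMHom_mk] at hy
      exact mem_smul_top_of_redV_eq_zero m e hy
  · intro w
    obtain ⟨v, hv⟩ := redV_surjective m e w
    exact ⟨Submodule.Quotient.mk v, hv⟩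

/-- the level `V/εV` of `ρA` is `ρ̄.V` -/
def redM : (ρA.V ⧸ (Ideal.span {(DualNumber.eps : DualNumber k)} •
    (⊤ : Submodule (DualNumber k) ρA.V))) ≃+ ρbar.V :=
  AddEquiv.ofBijective (redMHom m e) (redMHom_bijective m e)

theorem redM_mk (v : ρA.V) : redM m e (Submodule.Quotient.mk v) = redV m e v := rfl

theorem redM_levelAct (σ : S53.GQ) (y) :
    redM m e (levelAct ρA (Ideal.span {(DualNumber.eps : DualNumber k)}) σ y) =
      ρbar.ρ σ (redM m e y) := by
  induction y using Submodule.Quotient.induction_on with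
  | _ v => rw [levelAct_mk, redM_mk, redM_mk, redV_rho]

end Reduction2

/-! ### the count for `ρ̄` -/

section Residual

variable {k : Type} [Field k] [Finite k] {ρbar : ResidualGaloisRep k}
  {ρA : GaloisRepAdic (DualNumber k)} (m : Model ρbar ρA) (q : Nat.Primes)

include m in
/-- **[FL-D], the count for `ρ̄`**: if `ρ̄` has a flat lift to `k[ε]` (so that `ρ̄` is flat) and a
`G_q`-stable line on which inertia acts trivially, then the inertia coinvariants of `ρ̄` have at
least `|k|` elements. -/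
theorem card_le_card_quot_augSubRes (hLS : LocUnrSub (q : ℕ)) (hqk : ((q : ℕ) : k) = 0)
    (hflat : ρA.IsFlatAt (q : ℕ)) {b : Module.Basis (Fin 2) k ρbar.V}
    (hstab : ∀ τ : primeLocalGaloisGroup q, IsUT b (ρbar.ρ (primeLocalToGlobal q τ)))
    (hunr : ∀ σ ∈ (primeLocalPlace q).inertiaSubgroupIn ℚ, ρbar.ρ σ (b 0) = b 0) :
    Nat.card k ≤ Nat.card (ρbar.V ⧸ augSubRes ρbar (primeLocalPlace q)) := by
  obtain ⟨e⟩ := m.equiv
  haveI : Finite (DualNumber k) := finite_dualNumber
  haveI : Finite (DualNumber k ⧸ Ideal.span {(DualNumber.eps : DualNumber k)}) :=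
    Finite.of_surjective _ (Ideal.Quotient.mk_surjective
      (I := Ideal.span {(DualNumber.eps : DualNumber k)}))
  haveI := finite_level ρA (Ideal.span {(DualNumber.eps : DualNumber k)})
  obtain ⟨Hs, hHs⟩ := hasHopfOrder_of_hasHopfModel
    (hflat.2 (Ideal.span {(DualNumber.eps : DualNumber k)}) inferInstance)
  have hact := isGalAction_levelAct ρA (Ideal.span {(DualNumber.eps : DualNumber k)})
  have hpA : ((q : ℕ) : DualNumber k) = 0 := by
    rw [natCast_dualNumber, hqk, TrivSqZeroExt.inl_zero]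
  have hpM : ∀ y : ρA.V ⧸ (Ideal.span {(DualNumber.eps : DualNumber k)} •
      (⊤ : Submodule (DualNumber k) ρA.V)), (q : ℕ) • y = 0 := by
    intro y
    rw [← Nat.cast_smul_eq_nsmul (DualNumber k), hpA, zero_smul]
  set eM := redM m e with heM
  have hact' : ∀ (σ : S53.GQ) y, eM (levelAct ρA _ σ y) = ρbar.ρ σ (eM y) :=
    fun σ y => redM_levelAct m e σ y
  -- the subgroup `N` = the line
  let N : AddSubgroup (ρA.V ⧸ (Ideal.span {(DualNumber.eps : DualNumber k)} •
      (⊤ : Submodule (DualNumber k) ρA.V))) :=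
    (Submodule.span k {b 0}).toAddSubgroup.comap eM.toAddMonoidHom
  have hNmem : ∀ y, y ∈ N ↔ eM y ∈ Submodule.span k {b 0} := fun y => Iff.rfl
  have hcount : Nat.card N ≤ (conn (q : ℕ) Hs hHs).index := by
    refine card_le_index_conn hLS hact hHs hpM N ?_ ?_
    · intro τ y hy
      rw [hNmem, hact']
      exact (isUT_iff_forall b).mp (hstab τ) _ ((hNmem y).mp hy)
    · intro τ hτ y hy
      apply eM.injective
      rw [hact']
      obtain ⟨a, ha⟩ := Submodule.mem_span_singleton.mp ((hNmem y).mp hy)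
      rw [← ha, map_smul, hunr _ (mem_inertia_of_isInertial q hτ)]
  have hkN : Nat.card k ≤ Nat.card N := by
    refine Nat.card_le_card_of_injective
      (fun a : k => (⟨eM.symm (a • b 0), by
        rw [hNmem, AddEquiv.apply_symm_apply]
        exact Submodule.smul_mem _ _ (Submodule.mem_span_singleton_self _)⟩ : N)) ?_
    intro a a' haa
    have h1 : eM.symm (a • b 0) = eM.symm (a' • b 0) := congrArg Subtype.val haa
    have h2 := eM.symm.injective h1
    have h3 : (a - a') • b 0 = 0 := by rw [sub_smul, h2, sub_self]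
    exact sub_eq_zero.mp ((smul_eq_zero.mp h3).resolve_right (b.ne_zero 0))
  -- from `conn` to `augSubRes`
  have hle : (augSubRes ρbar (primeLocalPlace q)).toAddSubgroup ≤
      (conn (q : ℕ) Hs hHs).comap eM.symm.toAddMonoidHom := by
    intro x hx
    rw [AddSubgroup.mem_comap]
    show eM.symm x ∈ conn (q : ℕ) Hs hHs
    induction hx using Submodule.closure_induction with
    | zero => rw [map_zero]; exact AddSubgroup.zero_mem _
    | add x y _ _ hx hy => rw [map_add]; exact AddSubgroup.add_mem _ hx hy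
    | smul_mem r x hx =>
      obtain ⟨σ, hσ, v, rfl⟩ := hx
      obtain ⟨τ, hτ, rfl⟩ := exists_isInertial_of_mem q hσ
      have h1 : r • (ρbar.ρ (localGaloisToGlobal (q : ℕ) τ) v - v) =
          ρbar.ρ (localGaloisToGlobal (q : ℕ) τ) (r • v) - r • v := by
        rw [smul_sub, map_smul]
      have h2 : eM.symm (ρbar.ρ (localGaloisToGlobal (q : ℕ) τ) (r • v)) =
          levelAct ρA _ (localGaloisToGlobal (q : ℕ) τ) (eM.symm (r • v)) := by
        apply eM.injective
        rw [hact', AddEquiv.apply_symm_apply, AddEquiv.apply_symm_apply]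
      rw [h1, map_sub, h2]
      exact act_sub_mem_conn hHs hτ _
  have hidx : (conn (q : ℕ) Hs hHs).index ≤
      (augSubRes ρbar (primeLocalPlace q)).toAddSubgroup.index := by
    have h1 : ((conn (q : ℕ) Hs hHs).comap eM.symm.toAddMonoidHom).index =
        (conn (q : ℕ) Hs hHs).index :=
      AddSubgroup.index_comap_of_surjective _ eM.symm.surjective
    rw [← h1]
    haveI : Finite ρbar.V := Finite.of_equiv _ eM.toEquiv
    exact Nat.le_of_dvd (Nat.pos_of_ne_zero AddSubgroup.index_ne_zero_of_finite)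
      (AddSubgroup.index_dvd_of_le hle)
  refine ((hkN.trans hcount).trans hidx).trans (le_of_eq ?_)
  exact AddSubgroup.index_eq_card _

end Residual

/-! ### [FL-D]: the output -/

section Final

open Fermat.Agent.S56.Ad

variable {k : Type} [Field k] [Finite k] {ρbar : ResidualGaloisRep k}
  {ρA : GaloisRepAdic (DualNumber k)} (m : Model ρbar ρA) (q : Nat.Primes)

include m in
/-- **[FL-D]: a flat lift to `k[ε]` of a `ρ̄` with a line with unramified quotient at `q` (and
`ρ̄` ramified at `q`) satisfies the frozen `IsOrdinaryAt` clause at `primeLocalPlace q`.** -/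
theorem ordinary_clause_of_isFlatAt (hLU : LocUnrQuot (q : ℕ)) (hqk : ((q : ℕ) : k) = 0)
    (hflat : ρA.IsFlatAt (q : ℕ)) {b : Module.Basis (Fin 2) k ρbar.V} (hb : IsSOBasis ρbar q b)
    (hram : ∃ σ ∈ (primeLocalPlace q).inertiaSubgroupIn ℚ, ρbar.ρ σ ≠ 1) :
    ∃ L : Submodule (DualNumber k) ρA.V,
      (∃ b' : Module.Basis (Fin 2) (DualNumber k) ρA.V,
        L = Submodule.span (DualNumber k) {b' 0}) ∧
      (∀ σ ∈ (primeLocalPlace q).decompositionSubgroup ℚ, ∀ v ∈ L, ρA.ρ σ v ∈ L) ∧
      (∀ σ ∈ (primeLocalPlace q).inertiaSubgroupIn ℚ, ∀ v : ρA.V, ρA.ρ σ v - v ∈ L) :=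
  ordinary_clause m (primeLocalPlace q) hram (card_le_card_quot_augSub m q hLU hqk hflat hb)

variable {p : ℕ} [Fact p.Prime] (hpk : (p : k) = 0) (h2 : (2 : k) ≠ 0)
  (hdet : ρA.DetIsCyclotomic p) [Algebra (ZMod p) k]

include h2 in
/-- **[FL-D], lift form**: for a flat lift `ρA` of `ρ̄` to `k[ε]` with cyclotomic determinant, `ρ̄`
having a line `k·b₀` with unramified quotient at `q` and `det ρ̄` ramified at `q`: the cocycle of any
model of `ρA`, restricted to the local Galois group at `q`, is cohomologous to a cocycle with values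
in the Borel subalgebra `W₁` of the line (so its class lies in the image of `H¹(G_q, W₁)`). -/
theorem exists_sub_mem_W1_of_isFlatAt (hLU : LocUnrQuot (q : ℕ)) (hqk : ((q : ℕ) : k) = 0)
    (hflat : ρA.IsFlatAt (q : ℕ)) {b : Module.Basis (Fin 2) k ρbar.V} (hb : IsSOBasis ρbar q b)
    (hram : ∃ σ ∈ (primeLocalPlace q).inertiaSubgroupIn ℚ, LinearMap.det (ρbar.ρ σ) ≠ 1) :
    ∃ x : Ad0 ρbar p, ∀ τ : primeLocalGaloisGroup q,
      m.cocycle p hpk hdet (primeLocalToGlobal q τ) -
        ((ad0 ρbar p).ρ (primeLocalToGlobal q τ) x - x) ∈ W1 ρbar p b :=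
  exists_sub_mem_W1_of_card_le m hpk h2 hdet q hb hram
    (card_le_card_quot_augSub m q hLU hqk hflat hb)

include m in
/-- **[FL-D], residual twin**: if `ρ̄` has a flat lift to `k[ε]`, a `G_q`-stable line on which the
inertia group acts trivially, and is ramified at `q`, then `ρ̄` has a line with unramified
quotient (namely `(I − 1) V̄`; in particular `ρ̄|G_q` is split when the two lines differ). -/
theorem exists_isSOBasis_of_isFlatAt (hLS : LocUnrSub (q : ℕ)) (hqk : ((q : ℕ) : k) = 0)
    (hflat : ρA.IsFlatAt (q : ℕ)) {b : Module.Basis (Fin 2) k ρbar.V}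
    (hstab : ∀ τ : primeLocalGaloisGroup q, IsUT b (ρbar.ρ (primeLocalToGlobal q τ)))
    (hunr : ∀ σ ∈ (primeLocalPlace q).inertiaSubgroupIn ℚ, ρbar.ρ σ (b 0) = b 0)
    (hram : ∃ σ ∈ (primeLocalPlace q).inertiaSubgroupIn ℚ, ρbar.ρ σ ≠ 1) :
    ∃ b' : Module.Basis (Fin 2) k ρbar.V, IsSOBasis ρbar q b' :=
  exists_isSOBasis_of_card_le ρbar q hram
    (card_le_card_quot_augSubRes m q hLS hqk hflat hstab hunr)

end Final

end Fermat.Agent.S56.Flat.PThree
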